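import Mathlib.FieldTheory.IsAlgClosed.AlgebraicClosure
import Mathlib.LinearAlgebra.Charpoly.ToMatrix
import Mathlib.LinearAlgebra.Matrix.Charpoly.Coeff
import Mathlib.LinearAlgebra.Matrix.ToLinearEquiv
import Mathlib.LinearAlgebra.Dimension.FreeAndStrongRankCondition
import Mathlib.RepresentationTheory.AlgebraRepresentation.Basic
import Mathlib.RingTheory.LocalRing.ResidueField.Basic
import Mathlib.RingTheory.TensorProduct.Free

/-!
# Brauer–Nesbitt and Carayol for representations of an abstract group

* In rank two, the characteristic polynomial of a power is determined by the characteristic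
  polynomial.
* Burnside: an absolutely irreducible representation spans the endomorphism algebra.
* Carayol: over a local ring, two representations with the same trace, one of which is
  residually spanning, are conjugate.
-/

noncomputable section

open scoped TensorProduct

namespace Fermat.Agent.Density

variable {G : Type*}

section Powers

variable {A : Type*} [CommRing A]

/-- Cayley–Hamilton in dimension two. -/
theorem matrix_two_mul_self (M : Matrix (Fin 2) (Fin 2) A) :
    M * M = M.trace • M - M.det • (1 : Matrix (Fin 2) (Fin 2) A) := by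
  ext i j
  fin_cases i <;> fin_cases j <;>
    simp [Matrix.mul_apply, Fin.sum_univ_two, Matrix.trace_fin_two, Matrix.det_fin_two] <;> ring

/-- In dimension two, the trace of a power depends only on the trace and the determinant. -/
theorem trace_pow_eq_of_trace_det {M N : Matrix (Fin 2) (Fin 2) A}
    (ht : M.trace = N.trace) (hd : M.det = N.det) (b : ℕ) :
    (M ^ b).trace = (N ^ b).trace := by
  suffices h : (M ^ b).trace = (N ^ b).trace ∧ (M ^ (b + 1)).trace = (N ^ (b + 1)).trace from h.1
  induction b with
  | zero => simp [ht]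
  | succ b ih =>
    have key : ∀ X : Matrix (Fin 2) (Fin 2) A,
        (X ^ (b + 1 + 1)).trace =
          X.trace * (X ^ (b + 1)).trace - X.det * (X ^ b).trace := by
      intro X
      rw [pow_succ X (b + 1), pow_succ X b, mul_assoc, matrix_two_mul_self, mul_sub,
        mul_smul_comm, mul_smul_comm, mul_one, Matrix.trace_sub, Matrix.trace_smul,
        Matrix.trace_smul, smul_eq_mul, smul_eq_mul]
    exact ⟨ih.2, by rw [key, key, ih.1, ih.2, ht, hd]⟩

end Powers

section Charpoly

variable {A : Type*} [CommRing A]
variable {V W : Type*} [AddCommGroup V] [Module A V] [AddCommGroup W] [Module A W]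

/-- The characteristic polynomial of a 2 × 2 matrix, over any commutative ring. -/
theorem charpoly_fin_two_eq (M : Matrix (Fin 2) (Fin 2) A) :
    M.charpoly = Polynomial.X ^ 2 - Polynomial.C M.trace * Polynomial.X + Polynomial.C M.det := by
  rcases subsingleton_or_nontrivial A with h | h
  · exact Subsingleton.elim _ _
  · exact M.charpoly_fin_two

theorem charpoly_fin_two_eq_iff (M N : Matrix (Fin 2) (Fin 2) A) :
    M.charpoly = N.charpoly ↔ M.trace = N.trace ∧ M.det = N.det := by
  refine ⟨fun h => ?_, fun h => by rw [charpoly_fin_two_eq, charpoly_fin_two_eq, h.1, h.2]⟩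
  rw [charpoly_fin_two_eq, charpoly_fin_two_eq] at h
  refine ⟨?_, ?_⟩
  · have h1 := congrArg (fun p => Polynomial.coeff p 1) h
    simpa [Polynomial.coeff_X_pow, Polynomial.coeff_C] using h1
  · have h0 := congrArg (fun p => Polynomial.coeff p 0) h
    simpa [Polynomial.coeff_X_pow, Polynomial.coeff_C] using h0

variable [Module.Free A V] [Module.Finite A V] [Module.Free A W] [Module.Finite A W]

theorem charpoly_eq_iff_toMatrix (bV : Module.Basis (Fin 2) A V) (bW : Module.Basis (Fin 2) A W)
    (f : Module.End A V) (f' : Module.End A W) :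
    f.charpoly = f'.charpoly ↔
      (LinearMap.toMatrixAlgEquiv bV f).trace = (LinearMap.toMatrixAlgEquiv bW f').trace ∧
        (LinearMap.toMatrixAlgEquiv bV f).det = (LinearMap.toMatrixAlgEquiv bW f').det := by
  rw [← LinearMap.charpoly_toMatrix f bV, ← LinearMap.charpoly_toMatrix f' bW]
  exact charpoly_fin_two_eq_iff _ _

/-- In rank two, the characteristic polynomial of a power is determined by the characteristic
polynomial. -/
theorem charpoly_pow_eq_of_charpoly_eq (hV : Module.finrank A V = 2) (hW : Module.finrank A W = 2)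
    {f : Module.End A V} {f' : Module.End A W} (h : f.charpoly = f'.charpoly) (b : ℕ) :
    (f ^ b).charpoly = (f' ^ b).charpoly := by
  rcases subsingleton_or_nontrivial A with hA | hA
  · exact Subsingleton.elim _ _
  let bV := Module.finBasisOfFinrankEq A V hV
  let bW := Module.finBasisOfFinrankEq A W hW
  rw [charpoly_eq_iff_toMatrix bV bW] at h ⊢
  rw [map_pow, map_pow]
  exact ⟨trace_pow_eq_of_trace_det h.1 h.2 b, by rw [Matrix.det_pow, Matrix.det_pow, h.2]⟩

end Charpoly

section Burnside

variable [Monoid G]

/-- Burnside's theorem: an irreducible finite-dimensional representation over an algebraically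
closed field spans the endomorphism algebra. -/
theorem span_range_eq_top_of_irreducible {K : Type*} [Field K] [IsAlgClosed K]
    {V : Type*} [AddCommGroup V] [Module K V] [FiniteDimensional K V] [Nontrivial V]
    (ρ : G →* Module.End K V)
    (hirr : ∀ W : Submodule K V, (∀ g, ∀ x ∈ W, ρ g x ∈ W) → W = ⊥ ∨ W = ⊤) :
    Submodule.span K (Set.range ρ) = ⊤ := by
  set B : Subalgebra K (Module.End K V) := Algebra.adjoin K (Set.range ρ) with hB
  have hsimple : IsSimpleModule B V := by
    rw [isSimpleModule_iff]
    refine ⟨fun W => ?_⟩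
    have key := hirr (W.restrictScalars K) (fun g x hx =>
      W.smul_mem (⟨ρ g, Algebra.subset_adjoin (Set.mem_range_self g)⟩ : B) hx)
    rcases key with h | h
    · exact Or.inl ((Submodule.restrictScalars_eq_bot_iff _ _ _).mp h)
    · exact Or.inr ((Submodule.restrictScalars_eq_top_iff _ _ _).mp h)
  have hclos : (Submonoid.closure (Set.range ρ) : Set (Module.End K V)) = Set.range ρ := by
    rw [← MonoidHom.coe_mrange, Submonoid.closure_eq]
  have hspan : Subalgebra.toSubmodule B = Submodule.span K (Set.range ρ) := by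
    rw [hB, Algebra.adjoin_eq_span, hclos]
  rw [← hspan, eq_top_iff]
  intro f _
  obtain ⟨s, hs⟩ := Module.Finite.fg_top (R := K) (M := V)
  let F : Module.End (Module.End B V) V :=
    { toFun := f
      map_add' := map_add f
      map_smul' := fun φ x => by
        obtain ⟨c, rfl⟩ := (IsSimpleModule.algebraMap_end_bijective_of_isAlgClosed K
          (A := B) (V := V)).2 φ
        simp }
  obtain ⟨r, hr⟩ := jacobson_density F s
  have hf : f = (r : Module.End K V) := LinearMap.ext_on hs fun m hm => hr m hm
  exact hf ▸ r.2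

variable {k : Type*} [Field k] {ι : Type*} [Fintype ι] [DecidableEq ι]

omit [Monoid G] in
/-- Spanning descends from an extension field. -/
theorem span_range_eq_top_of_map {K : Type*} [Field K] (φ : k →+* K)
    (R : G → Matrix ι ι k)
    (h : Submodule.span K (Set.range fun g => (R g).map φ) = ⊤) :
    Submodule.span k (Set.range R) = ⊤ := by
  by_contra hne
  obtain ⟨f, hf0, hfS⟩ :=
    Submodule.exists_dual_map_eq_bot_of_lt_top (lt_top_iff_ne_top.mpr hne) inferInstance
  let c : ι → ι → k := fun i j => f (Matrix.single i j 1)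
  have hfc : ∀ X : Matrix ι ι k, f X = ∑ i, ∑ j, X i j * c i j := by
    intro X
    conv_lhs => rw [Matrix.matrix_eq_sum_single X]
    simp only [map_sum, c]
    refine Finset.sum_congr rfl fun i _ => Finset.sum_congr rfl fun j _ => ?_
    rw [show Matrix.single i j (X i j) = X i j • Matrix.single i j (1 : k) by simp, map_smul,
      smul_eq_mul]
  let F : Matrix ι ι K →ₗ[K] K :=
    { toFun := fun X => ∑ i, ∑ j, X i j * φ (c i j)
      map_add' := fun X Y => by simp [add_mul, Finset.sum_add_distrib]
      map_smul' := fun a X => by simp [Finset.mul_sum, mul_assoc] }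
  have hF : Submodule.span K (Set.range fun g => (R g).map φ) ≤ LinearMap.ker F := by
    rw [Submodule.span_le]
    rintro _ ⟨g, rfl⟩
    have hg : f (R g) = 0 := by
      have : f (R g) ∈ Submodule.map f (Submodule.span k (Set.range R)) :=
        Submodule.mem_map_of_mem (Submodule.subset_span ⟨g, rfl⟩)
      rw [hfS, Submodule.mem_bot] at this
      exact this
    have := congrArg φ hg
    simpa [hfc, F] using this
  rw [h] at hF
  refine hf0 (LinearMap.ext fun X => ?_)
  have := hF (Submodule.mem_top (x := X.map φ))
  simpa [F, hfc, ← map_mul, ← map_sum] using this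

/-- Burnside over any field: absolutely irreducible representations span the endomorphism
algebra. -/
theorem span_range_eq_top_of_absolutelyIrreducible (K : Type*) [Field K] [IsAlgClosed K]
    [Algebra k K] {V : Type*} [AddCommGroup V] [Module k V] [FiniteDimensional k V] [Nontrivial V]
    (ρ : G →* Module.End k V)
    (hirr : ∀ W : Submodule K (K ⊗[k] V),
      (∀ g, ∀ x ∈ W, (ρ g).baseChange K x ∈ W) → W = ⊥ ∨ W = ⊤) :
    Submodule.span k (Set.range ρ) = ⊤ := by
  let b := Module.finBasis k V
  let bK := Algebra.TensorProduct.basis K b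
  let ρK : G →* Module.End K (K ⊗[k] V) :=
    { toFun := fun g => (ρ g).baseChange K
      map_one' := by rw [map_one, LinearMap.baseChange_one]
      map_mul' := fun x y => by rw [map_mul, LinearMap.baseChange_mul] }
  have : Nontrivial (K ⊗[k] V) := Module.nontrivial_of_finrank_pos (R := K)
    (by rw [Module.finrank_baseChange]; exact Module.finrank_pos)
  have h1 := span_range_eq_top_of_irreducible ρK hirr
  have h2 : Submodule.span K
      (Set.range fun g => (LinearMap.toMatrix b b (ρ g)).map (algebraMap k K)) = ⊤ := by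
    have h3 := congrArg (Submodule.map (LinearMap.toMatrix bK bK).toLinearMap) h1
    rw [Submodule.map_span, Submodule.map_top, LinearEquiv.range, ← Set.range_comp] at h3
    rw [show (fun g => (LinearMap.toMatrix b b (ρ g)).map (algebraMap k K)) =
      fun g => LinearMap.toMatrix bK bK (ρK g) from
        funext fun g => (LinearMap.toMatrix_baseChange _ _ b b).symm]
    exact h3
  have h4 := span_range_eq_top_of_map (algebraMap k K) (fun g => LinearMap.toMatrix b b (ρ g)) h2
  have h5 := congrArg (Submodule.map (LinearMap.toMatrix b b).symm.toLinearMap) h4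
  rw [Submodule.map_span, Submodule.map_top, LinearEquiv.range, ← Set.range_comp] at h5
  rw [show (⇑ρ : G → Module.End k V) =
    fun g => (LinearMap.toMatrix b b).symm (LinearMap.toMatrix b b (ρ g)) from
      funext fun g => (LinearEquiv.symm_apply_apply _ _).symm]
  exact h5

end Burnside

section Carayol

variable [Monoid G] {ι : Type*} [Fintype ι] [DecidableEq ι]

/-- A linear multiplicative bijection of a full matrix algebra over a local ring is inner. -/
theorem exists_isUnit_mul_eq_of_multiplicative {A : Type*} [CommRing A] [IsLocalRing A]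
    (θ : Matrix ι ι A ≃ₗ[A] Matrix ι ι A) (hθ : ∀ X Y, θ (X * Y) = θ X * θ Y) :
    ∃ P : Matrix ι ι A, IsUnit P ∧ ∀ X, θ X * P = P * X := by
  rcases isEmpty_or_nonempty ι with h | ⟨⟨i0⟩⟩
  · exact ⟨1, isUnit_one, fun X => Subsingleton.elim _ _⟩
  let E : ι → Matrix ι ι A := fun i => Matrix.single i i0 1
  let π := IsLocalRing.residue A
  obtain ⟨r, u, hru⟩ : ∃ r u, π (θ (E i0) r u) ≠ 0 := by
    by_contra hcon
    push Not at hcon
    have h0 : θ (E i0) = ∑ r, ∑ u, θ (E i0) r u • Matrix.single r u (1 : A) := by
      conv_lhs => rw [Matrix.matrix_eq_sum_single (θ (E i0))]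
      simp
    have h1 := congrArg (fun Z => π (θ.symm Z i0 i0)) h0
    simp only [map_sum, map_smul, Matrix.sum_apply, Matrix.smul_apply, smul_eq_mul, map_mul, hcon,
      zero_mul, Finset.sum_const_zero, LinearEquiv.symm_apply_apply] at h1
    simp [E] at h1
  let P : Matrix ι ι A := Matrix.of fun a i => θ (E i) a u
  have hPX : ∀ X, θ X * P = P * X := by
    intro X
    ext a i
    have hXE : X * E i = ∑ j, X j i • E j := by
      ext c d
      by_cases hd : d = i0
      · subst hd; simp [E, Matrix.sum_apply, Matrix.single_apply]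
      · simp [E, Matrix.sum_apply, Matrix.mul_apply, Ne.symm hd]
    calc (θ X * P) a i = ∑ c, θ X a c * θ (E i) c u := by simp [Matrix.mul_apply, P]
      _ = (θ X * θ (E i)) a u := Matrix.mul_apply.symm
      _ = θ (X * E i) a u := by rw [hθ]
      _ = (∑ j, X j i • θ (E j)) a u := by rw [hXE, map_sum]; simp only [map_smul]
      _ = (P * X) a i := by simp [Matrix.sum_apply, Matrix.mul_apply, P, mul_comm]
  have hker : ∀ v : ι → IsLocalRing.ResidueField A, (P.map π).mulVec v = 0 → v = 0 := by
    intro v hv
    by_contra hv0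
    obtain ⟨j, hj⟩ := Function.ne_iff.mp hv0
    have h1 : (P.map π).mulVec ((Matrix.single i0 j (1 : IsLocalRing.ResidueField A)).mulVec v)
        = 0 := by
      have h2 := congrArg (fun Z : Matrix ι ι A => (Z.map π).mulVec v) (hPX (Matrix.single i0 j 1))
      simp only [Matrix.map_mul] at h2
      rw [← Matrix.mulVec_mulVec, hv, Matrix.mulVec_zero, ← Matrix.mulVec_mulVec] at h2
      rw [h2]
      congr 2
      ext c d
      simp [Matrix.single_apply, apply_ite π]
    have h3 := congrFun h1 r
    simp [Matrix.mulVec, dotProduct, Matrix.single_apply, P, ite_and, hru] at h3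
    exact hj h3
  refine ⟨P, ?_, hPX⟩
  rw [Matrix.isUnit_iff_isUnit_det]
  refine (isUnit_map_iff π _).mp (isUnit_iff_ne_zero.mpr fun hdet => ?_)
  rw [RingHom.map_det, RingHom.mapMatrix_apply] at hdet
  obtain ⟨v, hv, hPv⟩ := Matrix.exists_mulVec_eq_zero_iff.mpr hdet
  exact hv (hker v hPv)

/-- The trace functionals attached to a tuple of matrices. -/
def traceCoords {A : Type*} [CommRing A] {κ : Type*} (e : κ → Matrix ι ι A) :
    Matrix ι ι A →ₗ[A] κ → A :=
  LinearMap.pi fun c => (Matrix.traceLinearMap ι A A).comp (LinearMap.mulRight A (e c))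

@[simp]
theorem traceCoords_apply {A : Type*} [CommRing A] {κ : Type*} (e : κ → Matrix ι ι A)
    (X : Matrix ι ι A) (c : κ) : traceCoords e X c = (X * e c).trace := rfl

/-- Carayol: over a local ring, two matrix representations with equal traces, the first one
residually spanning the matrix algebra, are conjugate. -/
theorem exists_isUnit_conj_of_trace_eq {A k : Type*} [CommRing A] [IsLocalRing A] [Field k]
    (φ : A →+* k) [IsLocalHom φ] (R₁ R₂ : G →* Matrix ι ι A)
    (hspan : Submodule.span k (Set.range fun g => (R₁ g).map φ) = ⊤)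
    (htr : ∀ g, (R₁ g).trace = (R₂ g).trace) :
    ∃ P : Matrix ι ι A, IsUnit P ∧ ∀ g, R₂ g * P = P * R₁ g := by
  obtain ⟨gs, hgs⟩ : ∃ gs : ι × ι → G,
      Submodule.span k (Set.range fun c => (R₁ (gs c)).map φ) = ⊤ ∧
      LinearIndependent k (fun c => (R₁ (gs c)).map φ) := by
    obtain ⟨κ, gs, -, hs, hli⟩ := exists_linearIndependent' k (fun g => (R₁ g).map φ)
    let bκ := Module.Basis.mk hli (hs.trans hspan).ge
    let e : ι × ι ≃ κ := (Matrix.stdBasis k ι ι).indexEquiv bκ
    refine ⟨gs ∘ e, ?_, hli.comp e e.injective⟩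
    rw [show (fun c => (R₁ ((gs ∘ e) c)).map φ) = ((fun g => (R₁ g).map φ) ∘ gs) ∘ e from rfl,
      e.surjective.range_comp]
    exact hs.trans hspan
  -- Gram matrix
  let T : Matrix (ι × ι) (ι × ι) A := Matrix.of fun a c => (R₁ (gs a) * R₁ (gs c)).trace
  have hTeq : ∀ R : G →* Matrix ι ι A, (∀ g, (R g).trace = (R₁ g).trace) →
      ∀ a c, traceCoords (fun c => R (gs c)) (R (gs a)) c = T a c := by
    intro R hR a c
    simp [T, ← map_mul, hR]
  have hTk : IsUnit (T.map φ) := by
    rw [← Matrix.linearIndependent_rows_iff_isUnit]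
    have hinj : LinearMap.ker (traceCoords fun c => (R₁ (gs c)).map φ) = ⊥ := by
      rw [LinearMap.ker_eq_bot']
      intro X hX
      rw [Matrix.ext_iff_trace_mul_right]
      intro Y
      have hY : Y ∈ Submodule.span k (Set.range fun c => (R₁ (gs c)).map φ) := by
        rw [hgs.1]; exact Submodule.mem_top
      rw [zero_mul, Matrix.trace_zero]
      induction hY using Submodule.span_induction with
      | mem y hy =>
        obtain ⟨c, rfl⟩ := hy
        exact congrFun hX c
      | zero => simp
      | add x y _ _ hx hy => simp [mul_add, hx, hy]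
      | smul a x _ hx => simp [hx]
    have := hgs.2.map' _ hinj
    have e : (T.map φ).row = (traceCoords fun c => (R₁ (gs c)).map φ) ∘
        fun c => (R₁ (gs c)).map φ := by
      funext a c
      simp [T, Matrix.row, AddMonoidHom.map_trace, ← Matrix.map_mul]
    rw [e]
    exact this
  have hT : IsUnit T := by
    rw [Matrix.isUnit_iff_isUnit_det] at hTk ⊢
    rw [← RingHom.mapMatrix_apply, ← RingHom.map_det] at hTk
    exact (isUnit_map_iff φ _).mp hTk
  have key : ∀ R : G →* Matrix ι ι A, (∀ g, (R g).trace = (R₁ g).trace) →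
      Function.Bijective (traceCoords fun c => R (gs c)) ∧
        Submodule.span A (Set.range fun c => R (gs c)) = ⊤ := by
    intro R hR
    set D := traceCoords (fun c => R (gs c)) with hD
    let L : (ι × ι → A) →ₗ[A] Matrix ι ι A := Fintype.linearCombination A (fun c => R (gs c))
    have hDL : ∀ v, D (L v) = Matrix.vecMul v T := by
      intro v
      funext c
      simp only [L, hD, Fintype.linearCombination_apply, map_sum, Finset.sum_apply, map_smul,
        Pi.smul_apply, smul_eq_mul, hTeq R hR]
      rfl
    have hDs : Function.Surjective D := fun w =>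
      let ⟨v, hv⟩ := (Matrix.vecMul_surjective_iff_isUnit.mpr hT) w
      ⟨L v, (hDL v).trans hv⟩
    let std := (Matrix.stdBasis A ι ι).equivFun
    have hDi : Function.Injective D := by
      have h1 : Function.Surjective (std.symm.toLinearMap.comp D) :=
        std.symm.surjective.comp hDs
      exact Function.Injective.of_comp (f := std.symm)
        (OrzechProperty.injective_of_surjective_endomorphism _ h1)
    refine ⟨⟨hDi, hDs⟩, eq_top_iff.mpr fun X _ => ?_⟩
    obtain ⟨v, hv⟩ := (Matrix.vecMul_surjective_iff_isUnit.mpr hT) (D X)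
    rw [← hDi ((hDL v).trans hv), ← Fintype.range_linearCombination]
    exact LinearMap.mem_range_self _ v
  have k1 := key R₁ fun _ => rfl
  have k2 := key R₂ fun g => (htr g).symm
  let θ : Matrix ι ι A ≃ₗ[A] Matrix ι ι A :=
    (LinearEquiv.ofBijective _ k1.1).trans (LinearEquiv.ofBijective _ k2.1).symm
  have hθg : ∀ g, θ (R₁ g) = R₂ g := by
    intro g
    apply (LinearEquiv.ofBijective _ k2.1).injective
    simp only [θ, LinearEquiv.trans_apply, LinearEquiv.apply_symm_apply]
    funext c
    simp [← map_mul, htr]
  have hθ : ∀ X Y, θ (X * Y) = θ X * θ Y := by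
    intro X Y
    have hX : X ∈ Submodule.span A (Set.range fun c => R₁ (gs c)) := by
      rw [k1.2]; exact Submodule.mem_top
    have hY : Y ∈ Submodule.span A (Set.range fun c => R₁ (gs c)) := by
      rw [k1.2]; exact Submodule.mem_top
    induction hX, hY using Submodule.span_induction₂ with
    | mem_mem x y hx hy =>
      obtain ⟨a, rfl⟩ := hx
      obtain ⟨c, rfl⟩ := hy
      simp only [← map_mul, hθg]
    | zero_left y _ => simp
    | zero_right x _ => simp
    | add_left x y z _ _ _ hx hy => simp [add_mul, hx, hy]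
    | add_right x y z _ _ _ hx hy => simp [mul_add, hx, hy]
    | smul_left a x y _ _ hx => simp [hx]
    | smul_right a x y _ _ hx => simp [hx]
  obtain ⟨P, hP, hPX⟩ := exists_isUnit_mul_eq_of_multiplicative θ hθ
  exact ⟨P, hP, fun g => by rw [← hθg, hPX]⟩

/-- Module form of Carayol's theorem. -/
theorem exists_linearEquiv_of_trace_eq {A k : Type*} [CommRing A] [IsLocalRing A] [Field k]
    (φ : A →+* k) [IsLocalHom φ]
    {V W : Type*} [AddCommGroup V] [Module A V] [AddCommGroup W] [Module A W]
    (bV : Module.Basis ι A V) (bW : Module.Basis ι A W)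
    (ρ₁ : G →* Module.End A V) (ρ₂ : G →* Module.End A W)
    (hspan : Submodule.span k
      (Set.range fun g => (LinearMap.toMatrixAlgEquiv bV (ρ₁ g)).map φ) = ⊤)
    (htr : ∀ g, (LinearMap.toMatrixAlgEquiv bV (ρ₁ g)).trace =
      (LinearMap.toMatrixAlgEquiv bW (ρ₂ g)).trace) :
    ∃ e : V ≃ₗ[A] W, ∀ g x, e (ρ₁ g x) = ρ₂ g (e x) := by
  let R₁ := ((LinearMap.toMatrixAlgEquiv bV : _ ≃ₐ[A] _) : Module.End A V →* Matrix ι ι A).comp ρ₁
  let R₂ := ((LinearMap.toMatrixAlgEquiv bW : _ ≃ₐ[A] _) : Module.End A W →* Matrix ι ι A).comp ρ₂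
  obtain ⟨P, hP, hPX⟩ := exists_isUnit_conj_of_trace_eq φ R₁ R₂ hspan htr
  have hd := (Matrix.isUnit_iff_isUnit_det P).mp hP
  let e : V ≃ₗ[A] W := LinearEquiv.ofLinearMap (Matrix.toLin bV bW P) (Matrix.toLin bW bV P⁻¹)
    (by rw [← Matrix.toLin_mul, Matrix.mul_nonsing_inv P hd, Matrix.toLin_one])
    (by rw [← Matrix.toLin_mul, Matrix.nonsing_inv_mul P hd, Matrix.toLin_one])
  refine ⟨e, fun g x => ?_⟩
  have h1 : Matrix.toLin bV bW P ∘ₗ ρ₁ g = ρ₂ g ∘ₗ Matrix.toLin bV bW P := by
    apply (LinearMap.toMatrix bV bW).injective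
    rw [LinearMap.toMatrix_comp bV bV bW, LinearMap.toMatrix_comp bV bW bW,
      LinearMap.toMatrix_toLin]
    exact (hPX g).symm
  exact LinearMap.congr_fun h1 x

end Carayol

end Fermat.Agent.Density
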