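import Fermat.Prelude.Def_EllipticCurve_FrobeniusTrace

/-!
# Conjugating Frobenius and inertia elements of valuation subrings
-/

noncomputable section

open scoped Pointwise

namespace Fermat.Agent.Density

variable {K L : Type*} [Field K] [Field L] [Algebra K L]

theorem smul_mem_nonunits_smul_iff {a : L ≃ₐ[K] L} {A : ValuationSubring L} {x : L} :
    a x ∈ (a • A).nonunits ↔ x ∈ A.nonunits := by
  rw [ValuationSubring.mem_nonunits_iff_or, ValuationSubring.mem_nonunits_iff_or,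
    EmbeddingLike.map_eq_zero_iff, ← map_inv₀ a x]
  refine or_congr Iff.rfl (not_congr ?_)
  exact ValuationSubring.smul_mem_pointwise_smul_iff (g := a)

theorem mem_smul_iff {a : L ≃ₐ[K] L} {A : ValuationSubring L} {x : L} :
    a x ∈ a • A ↔ x ∈ A :=
  ValuationSubring.smul_mem_pointwise_smul_iff (g := a)

theorem liesOverPrime_smul {A : ValuationSubring L} {q : ℕ} (h : A.LiesOverPrime q)
    (a : L ≃ₐ[K] L) : (a • A).LiesOverPrime q := by
  have h' : a (q : L) ∈ (a • A).nonunits := smul_mem_nonunits_smul_iff.mpr h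
  rwa [map_natCast] at h'

theorem residue_eq_iff {A : ValuationSubring L} {x y : A} :
    IsLocalRing.residue A x = IsLocalRing.residue A y ↔ ((x : L) - y) ∈ A.nonunits := by
  rw [← AddSubgroupClass.coe_sub, ValuationSubring.coe_mem_nonunits_iff]
  exact Ideal.Quotient.eq

/-- Concrete characterisation of `IsFrobeniusAt`. -/
theorem isFrobeniusAt_iff {A : ValuationSubring L} {σ : L ≃ₐ[K] L} {q : ℕ} :
    A.IsFrobeniusAt σ q ↔
      σ ∈ A.decompositionSubgroup K ∧ ∀ x ∈ A, σ x - x ^ q ∈ A.nonunits := by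
  constructor
  · rintro ⟨hσ, h⟩
    refine ⟨hσ, fun x hx => ?_⟩
    have h' := h (IsLocalRing.residue A ⟨x, hx⟩)
    rw [← IsLocalRing.ResidueField.residue_smul, ← map_pow] at h'
    exact residue_eq_iff.mp h'
  · rintro ⟨hσ, h⟩
    refine ⟨hσ, fun y => ?_⟩
    obtain ⟨⟨x, hx⟩, rfl⟩ := IsLocalRing.residue_surjective y
    rw [← IsLocalRing.ResidueField.residue_smul, ← map_pow]
    exact residue_eq_iff.mpr (h x hx)

/-- Concrete characterisation of inertia. -/
theorem mem_inertiaSubgroupIn_iff {A : ValuationSubring L} {σ : L ≃ₐ[K] L} :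
    σ ∈ A.inertiaSubgroupIn K ↔
      σ ∈ A.decompositionSubgroup K ∧ ∀ x ∈ A, σ x - x ∈ A.nonunits := by
  rw [ValuationSubring.inertiaSubgroupIn, Subgroup.mem_map]
  constructor
  · rintro ⟨⟨σ', hσ⟩, hker, rfl⟩
    refine ⟨hσ, fun x hx => ?_⟩
    have h' : (⟨σ', hσ⟩ : A.decompositionSubgroup K) • IsLocalRing.residue A ⟨x, hx⟩ =
        IsLocalRing.residue A ⟨x, hx⟩ :=
      RingEquiv.congr_fun (MonoidHom.mem_ker.mp hker) _
    rw [← IsLocalRing.ResidueField.residue_smul] at h'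
    exact residue_eq_iff.mp h'
  · rintro ⟨hσ, h⟩
    refine ⟨⟨σ, hσ⟩, MonoidHom.mem_ker.mpr (RingEquiv.ext fun y => ?_), rfl⟩
    obtain ⟨⟨x, hx⟩, rfl⟩ := IsLocalRing.residue_surjective y
    show (⟨σ, hσ⟩ : A.decompositionSubgroup K) • IsLocalRing.residue A ⟨x, hx⟩ = _
    rw [← IsLocalRing.ResidueField.residue_smul]
    exact residue_eq_iff.mpr (h x hx)

theorem mem_decompositionSubgroup_smul {A : ValuationSubring L} {σ : L ≃ₐ[K] L}
    (h : σ ∈ A.decompositionSubgroup K) (a : L ≃ₐ[K] L) :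
    a * σ * a⁻¹ ∈ (a • A).decompositionSubgroup K := by
  rw [MulAction.mem_stabilizer_iff] at h ⊢
  rw [smul_smul, inv_mul_cancel_right, mul_smul, h]

theorem isFrobeniusAt_conj {A : ValuationSubring L} {σ : L ≃ₐ[K] L} {q : ℕ}
    (h : A.IsFrobeniusAt σ q) (a : L ≃ₐ[K] L) :
    (a • A).IsFrobeniusAt (a * σ * a⁻¹) q := by
  rw [isFrobeniusAt_iff] at h ⊢
  refine ⟨mem_decompositionSubgroup_smul h.1 a, fun y hy => ?_⟩
  obtain ⟨x, rfl⟩ := a.surjective y
  have h1 : (a * σ * a⁻¹) (a x) - a x ^ q = a (σ x - x ^ q) := by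
    simp [AlgEquiv.mul_apply, map_sub, map_pow]
  rw [h1]
  exact smul_mem_nonunits_smul_iff.mpr (h.2 x (mem_smul_iff.mp hy))

theorem conj_inv_mem_inertiaSubgroupIn {A : ValuationSubring L} {τ a : L ≃ₐ[K] L}
    (h : τ ∈ (a • A).inertiaSubgroupIn K) : a⁻¹ * τ * a ∈ A.inertiaSubgroupIn K := by
  rw [mem_inertiaSubgroupIn_iff] at h ⊢
  refine ⟨?_, fun x hx => ?_⟩
  · have := mem_decompositionSubgroup_smul h.1 a⁻¹
    rwa [inv_smul_smul, inv_inv] at this
  · rw [← smul_mem_nonunits_smul_iff (a := a), map_sub]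
    have := h.2 (a x) (mem_smul_iff.mpr hx)
    simpa [AlgEquiv.mul_apply] using this

end Fermat.Agent.Density
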