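import Mathlib.Analysis.SpecialFunctions.Log.Basic
import Mathlib.Analysis.PSeries
import Mathlib.NumberTheory.SumPrimeReciprocals
import Mathlib.GroupTheory.SpecificGroups.Cyclic
import Mathlib.Data.Nat.Totient
import Mathlib.Analysis.Asymptotics.Lemmas

/-!
# From permutation-character prime sums to cyclic-subgroup density

If for every subgroup `H` the prime sums weighted by `#{a | a h_ℓ a⁻¹ ∈ H} / |H|` have the
asymptotic `log (1/(s-1))`, then every cyclic subgroup is, up to conjugation, generated by some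
`h_ℓ` with `ℓ` outside any given finite set.
-/

noncomputable section

open Filter Topology Asymptotics

namespace Fermat.Agent.Density

private def logPole (s : ℝ) : ℝ := Real.log (1 / (s - 1))

private lemma tendsto_logPole : Tendsto logPole (𝓝[>] 1) atTop := by
  refine Real.tendsto_log_atTop.comp ?_
  have h : Tendsto (fun s : ℝ ↦ s - 1) (𝓝[>] 1) (𝓝[>] 0) := by
    refine tendsto_nhdsWithin_of_tendsto_nhds_of_eventually_within _ ?_ ?_
    · exact ((continuous_sub_right (1 : ℝ)).tendsto' 1 0 (sub_self 1)).mono_left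
        nhdsWithin_le_nhds
    · filter_upwards [self_mem_nhdsWithin] with s hs
      exact sub_pos.mpr (Set.mem_Ioi.mp hs)
  simpa [one_div, Function.comp_def] using tendsto_inv_nhdsGT_zero.comp h

private lemma summable_weight {c : Nat.Primes → ℕ} {B : ℕ} (hc : ∀ ℓ, c ℓ ≤ B) {s : ℝ}
    (hs : 1 < s) : Summable fun ℓ : Nat.Primes ↦ (c ℓ : ℝ) * (ℓ : ℝ) ^ (-s) := by
  refine ((Nat.Primes.summable_rpow.mpr (neg_lt_neg hs)).mul_left (B : ℝ)).of_nonneg_of_le
    (fun ℓ ↦ by positivity) fun ℓ ↦ ?_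
  exact mul_le_mul_of_nonneg_right (by exact_mod_cast hc ℓ) (by positivity)

variable {G : Type*} [Group G] [Finite G]

theorem exists_conj_zpowers_eq_of_prime_sum (h : Nat.Primes → G) (U : Finset Nat.Primes)
    (cnt : Subgroup G → Nat.Primes → ℕ)
    (hcnt : ∀ H : Subgroup G, ∀ ℓ ∉ U,
      cnt H ℓ * Nat.card H = Nat.card {a : G // a * h ℓ * a⁻¹ ∈ H})
    (hasymp : ∀ H : Subgroup G, ∃ C : ℝ, ∀ᶠ s in 𝓝[>] (1 : ℝ),
      Summable (fun ℓ : Nat.Primes ↦ (cnt H ℓ : ℝ) * (ℓ : ℝ) ^ (-s)) ∧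
      |(∑' ℓ : Nat.Primes, (cnt H ℓ : ℝ) * (ℓ : ℝ) ^ (-s)) - Real.log (1 / (s - 1))| ≤ C)
    (g : G) :
    ∃ ℓ ∉ U, ∃ a : G, Subgroup.zpowers (a * h ℓ * a⁻¹) = Subgroup.zpowers g := by
  classical
  have := Fintype.ofFinite G
  set n := orderOf g with hn_def
  have hn : 0 < n := orderOf_pos g
  -- the number of `a` conjugating `h ℓ` to a generator of the subgroup of order `e` of `⟨g⟩`
  let E : ℕ → Nat.Primes → ℕ := fun e ℓ ↦ if ℓ ∈ U then 0 else
    (Finset.univ.filter fun a : G ↦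
      a * h ℓ * a⁻¹ ∈ Subgroup.zpowers g ∧ orderOf (h ℓ) = e).card
  let T : ℕ → ℝ → ℝ := fun e s ↦ ∑' ℓ : Nat.Primes, (E e ℓ : ℝ) * (ℓ : ℝ) ^ (-s)
  have hE : ∀ e ℓ, E e ℓ ≤ Fintype.card G := fun e ℓ ↦ by
    simp only [E]; split_ifs
    · exact Nat.zero_le _
    · exact Finset.card_le_univ _
  by_contra hcon
  push Not at hcon
  have hEn : ∀ ℓ, E n ℓ = 0 := fun ℓ ↦ by
    simp only [E]; split_ifs with hℓ
    · rfl
    rw [Finset.card_eq_zero, Finset.filter_eq_empty_iff]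
    rintro a - ⟨ha, he⟩
    refine hcon ℓ hℓ a (Subgroup.eq_of_le_of_card_ge ?_ (le_of_eq ?_))
    · rwa [Subgroup.zpowers_le]
    · rw [Nat.card_zpowers, Nat.card_zpowers,
        show a * h ℓ * a⁻¹ = MulAut.conj a (h ℓ) from rfl, MulEquiv.orderOf_eq, he]
  -- the count for the subgroup of order `d`
  have hsubgroup : ∀ d ∈ n.divisors, ∀ ℓ, ℓ ∉ U →
      cnt (Subgroup.zpowers (g ^ (n / d))) ℓ * d = ∑ e ∈ d.divisors, E e ℓ := by
    intro d hd ℓ hℓ
    obtain ⟨hdn, -⟩ := Nat.mem_divisors.mp hd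
    have hd0 : 0 < d := Nat.pos_of_dvd_of_pos hdn hn
    have hq : n / d ∣ n := Nat.div_dvd_of_dvd hdn
    have hord : orderOf (g ^ (n / d)) = d := by
      rw [orderOf_pow_of_dvd (Nat.div_pos (Nat.le_of_dvd hn hdn) hd0).ne' hq,
        Nat.div_div_self hdn hn.ne']
    have hmem : ∀ x : G, x ∈ Subgroup.zpowers (g ^ (n / d)) ↔
        x ∈ Subgroup.zpowers g ∧ orderOf x ∣ d := by
      intro x
      constructor
      · intro hx
        refine ⟨Subgroup.zpowers_le.mpr (Subgroup.npow_mem_zpowers g _) hx, ?_⟩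
        exact hord ▸ orderOf_dvd_of_mem_zpowers hx
      · rintro ⟨hx, hxd⟩
        obtain ⟨m, rfl⟩ := mem_zpowers_iff_mem_range_orderOf.mp hx |> Finset.mem_image.mp |>
          fun ⟨m, _, hm⟩ ↦ (⟨m, hm.symm⟩ : ∃ m : ℕ, x = g ^ m)
        have h1 : n ∣ m * d := by
          rw [hn_def]
          exact orderOf_dvd_of_pow_eq_one (by rw [pow_mul]; exact orderOf_dvd_iff_pow_eq_one.mp hxd)
        have h2 : n / d ∣ m := by
          refine Nat.dvd_of_mul_dvd_mul_right hd0 ?_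
          rwa [Nat.div_mul_cancel hdn]
        obtain ⟨k, rfl⟩ := h2
        rw [pow_mul]
        exact Subgroup.npow_mem_zpowers _ _
    have hc := hcnt (Subgroup.zpowers (g ^ (n / d))) ℓ hℓ
    rw [Nat.card_zpowers, hord] at hc
    rw [hc, Nat.card_eq_fintype_card, Fintype.card_subtype]
    simp only [E, if_neg hℓ]
    rw [Finset.card_eq_sum_card_fiberwise (f := fun _ : G ↦ orderOf (h ℓ)) (t := d.divisors)]
    · refine Finset.sum_congr rfl fun e he ↦ congrArg Finset.card ?_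
      ext a
      simp only [Finset.mem_filter, Finset.mem_univ, true_and, hmem]
      have ho : orderOf (a * h ℓ * a⁻¹) = orderOf (h ℓ) :=
        orderOf_injective (MulAut.conj a).toMonoidHom (MulAut.conj a).injective (h ℓ)
      constructor
      · rintro ⟨⟨h1, -⟩, h2⟩; exact ⟨h1, h2⟩
      · rintro ⟨h1, h2⟩
        exact ⟨⟨h1, by rw [ho, h2]; exact Nat.dvd_of_mem_divisors he⟩, h2⟩
    · intro a ha
      simp only [Finset.coe_filter, Finset.mem_univ, true_and, Set.mem_ofPred_eq, hmem] at ha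
      have ho : orderOf (a * h ℓ * a⁻¹) = orderOf (h ℓ) :=
        orderOf_injective (MulAut.conj a).toMonoidHom (MulAut.conj a).injective (h ℓ)
      exact Nat.mem_divisors.mpr ⟨ho ▸ ha.2, hd0.ne'⟩
  -- `∑_{e ∣ d} T e = d L + O(1)`
  have hdiv : ∀ d ∈ n.divisors,
      (fun s ↦ (∑ e ∈ d.divisors, T e s) - (d : ℝ) * logPole s) =O[𝓝[>] 1] fun _ ↦ (1 : ℝ) := by
    intro d hd
    set H := Subgroup.zpowers (g ^ (n / d))
    obtain ⟨C, hC⟩ := hasymp H
    refine IsBigO.of_bound ((d : ℝ) * C + ∑ ℓ ∈ U, (cnt H ℓ : ℝ) * d) ?_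
    filter_upwards [hC, self_mem_nhdsWithin] with s ⟨hsum, hle⟩ hs
    have hs1 : (1 : ℝ) < s := hs
    rw [norm_one, mul_one, Real.norm_eq_abs]
    have hU : ∑' ℓ : Nat.Primes, ((cnt H ℓ : ℝ) * (ℓ : ℝ) ^ (-s) * d -
        ∑ e ∈ d.divisors, (E e ℓ : ℝ) * (ℓ : ℝ) ^ (-s)) =
        ∑ ℓ ∈ U, (cnt H ℓ : ℝ) * (ℓ : ℝ) ^ (-s) * d := by
      rw [tsum_eq_sum (s := U) fun ℓ hℓ ↦ ?_]
      · exact Finset.sum_congr rfl fun ℓ hℓ ↦ by simp [E, if_pos hℓ]
      · rw [← Finset.sum_mul, ← Nat.cast_sum, ← hsubgroup d hd ℓ hℓ]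
        push_cast
        ring
    have hsumE : ∀ e, Summable fun ℓ : Nat.Primes ↦ (E e ℓ : ℝ) * (ℓ : ℝ) ^ (-s) :=
      fun e ↦ summable_weight (hE e) hs1
    rw [(hsum.mul_right (d : ℝ)).tsum_sub (summable_sum fun e _ ↦ hsumE e),
      Summable.tsum_finsetSum fun e _ ↦ hsumE e, tsum_mul_right] at hU
    have hbd : ∑ ℓ ∈ U, (cnt H ℓ : ℝ) * (ℓ : ℝ) ^ (-s) * d ≤ ∑ ℓ ∈ U, (cnt H ℓ : ℝ) * d := by
      refine Finset.sum_le_sum fun ℓ _ ↦ mul_le_mul_of_nonneg_right ?_ (Nat.cast_nonneg d)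
      refine mul_le_of_le_one_right (Nat.cast_nonneg _) ?_
      exact Real.rpow_le_one_of_one_le_of_nonpos (by exact_mod_cast ℓ.2.one_le) (by linarith)
    have hnn : 0 ≤ ∑ ℓ ∈ U, (cnt H ℓ : ℝ) * (ℓ : ℝ) ^ (-s) * d :=
      Finset.sum_nonneg fun ℓ _ ↦ by positivity
    have hsumT : ∑ e ∈ d.divisors, T e s =
        (∑' ℓ : Nat.Primes, (cnt H ℓ : ℝ) * (ℓ : ℝ) ^ (-s)) * d -
          ∑ ℓ ∈ U, (cnt H ℓ : ℝ) * (ℓ : ℝ) ^ (-s) * d := by
      simp only [T]; linarith
    rw [hsumT]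
    obtain ⟨hl, hr⟩ := abs_le.mp hle
    have hl' := mul_le_mul_of_nonneg_right hl (Nat.cast_nonneg (α := ℝ) d)
    have hr' := mul_le_mul_of_nonneg_right hr (Nat.cast_nonneg (α := ℝ) d)
    simp only [logPole]
    rw [abs_le]; constructor <;> nlinarith
  -- hence `T d = φ d L + O(1)`
  have hT : ∀ d, d ∈ n.divisors →
      (fun s ↦ T d s - (d.totient : ℝ) * logPole s) =O[𝓝[>] 1] fun _ ↦ (1 : ℝ) := by
    intro d
    induction d using Nat.strong_induction_on with
    | _ d ih =>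
      intro hd
      obtain ⟨hdn, hn0⟩ := Nat.mem_divisors.mp hd
      have hd0 : d ≠ 0 := by rintro rfl; exact hn0 (Nat.eq_zero_of_zero_dvd hdn)
      have hrest := IsBigO.fun_sum (s := d.properDivisors)
        (A := fun e s ↦ T e s - (e.totient : ℝ) * logPole s) (g := fun _ ↦ (1 : ℝ))
        (l := 𝓝[>] 1) fun e he ↦ ih e (Nat.mem_properDivisors.mp he).2
          (Nat.mem_divisors.mpr ⟨(Nat.mem_properDivisors.mp he).1.trans hdn, hn0⟩)
      refine ((hdiv d hd).sub hrest).congr_left fun s ↦ ?_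
      have hphi : (d : ℝ) = ∑ e ∈ d.properDivisors, (e.totient : ℝ) + (d.totient : ℝ) := by
        have := Nat.sum_totient d
        rw [← Nat.insert_self_properDivisors hd0,
          Finset.sum_insert Nat.self_notMem_properDivisors, add_comm] at this
        exact_mod_cast this.symm
      rw [← Nat.insert_self_properDivisors hd0,
        Finset.sum_insert Nat.self_notMem_properDivisors, Finset.sum_sub_distrib,
        ← Finset.sum_mul, hphi]
      ring
  obtain ⟨C, hC⟩ := (hT n (Nat.mem_divisors_self n hn.ne')).bound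
  have hbig := (tendsto_logPole.const_mul_atTop
    (show (0 : ℝ) < n.totient by exact_mod_cast Nat.totient_pos.mpr hn)).eventually_gt_atTop C
  obtain ⟨s, hs, hs'⟩ := (hC.and hbig).exists
  have hT0 : T n s = 0 := by simp [T, hEn]
  rw [hT0, zero_sub, norm_neg, norm_one, mul_one, Real.norm_eq_abs] at hs
  linarith [le_abs_self ((n.totient : ℝ) * logPole s)]

end Fermat.Agent.Density
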