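import Mathlib.NumberTheory.NumberField.DedekindZeta

/-!
# The prime sum of a number field near `s = 1`

`∑_ℓ #{ideals of norm ℓ} · ℓ^{-s} = log (1/(s-1)) + O(1)` as `s → 1⁺`.  Only the simple pole of
the Dedekind zeta function at `1` is used.
-/

noncomputable section

open NumberField Filter Topology

namespace Fermat.Agent.Density

/-- A finite intermediate field of an extension of `ℚ` is a number field. -/
instance numberFieldIntermediateField {L : Type*} [Field L] [Algebra ℚ L]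
    (F : IntermediateField ℚ L) [FiniteDimensional ℚ F] : NumberField F where
  to_charZero := charZero_of_injective_algebraMap (algebraMap ℚ F).injective
  to_finiteDimensional := by
    have h : FiniteDimensional ℚ F := inferInstance
    convert h using 1
    all_goals exact Subsingleton.elim _ _

/-- Number of ideals of norm `n` in the ring of integers of `F`. -/
def idealCount (F : Type*) [Field F] [NumberField F] (n : ℕ) : ℕ :=
  Nat.card {I : Ideal (𝓞 F) // Ideal.absNorm I = n}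

variable (F : Type*) [Field F] [NumberField F]

/-- The term `N(I)^{-s}`. -/
private def wt (s : ℝ) (I : Ideal (𝓞 F)) : ℝ := (Ideal.absNorm I : ℝ) ^ (-s)

/-- The real Dedekind zeta sum. -/
private def zetaSum (s : ℝ) : ℝ := ∑' n : ℕ, (idealCount F n : ℝ) * (n : ℝ) ^ (-s)

private lemma wt_nonneg (s : ℝ) (I : Ideal (𝓞 F)) : 0 ≤ wt F s I :=
  Real.rpow_nonneg (Nat.cast_nonneg _) _

private lemma term_eq {s : ℝ} (hs : s ≠ 0) (n : ℕ) :
    LSeries.term (fun n ↦ (Nat.card {I : Ideal (𝓞 F) // Ideal.absNorm I = n} : ℂ)) (s : ℂ) n =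
      ((((idealCount F n : ℝ) * (n : ℝ) ^ (-s)) : ℝ) : ℂ) := by
  rcases eq_or_ne n 0 with rfl | hn
  · simp [LSeries.term, Real.zero_rpow (neg_ne_zero.mpr hs)]
  · rw [LSeries.term_of_ne_zero hn, div_eq_mul_inv, ← Complex.cpow_neg, ← Complex.ofReal_neg,
      Complex.ofReal_mul, Complex.ofReal_cpow (Nat.cast_nonneg n)]
    simp [idealCount]

private lemma dedekindZeta_eq {s : ℝ} (hs : s ≠ 0) :
    dedekindZeta F (s : ℂ) = (zetaSum F s : ℂ) := by
  rw [dedekindZeta, LSeries, zetaSum, Complex.ofReal_tsum]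
  exact tsum_congr fun n ↦ term_eq F hs n

private lemma tendsto_zetaSum :
    Tendsto (fun s : ℝ ↦ (s - 1) * zetaSum F s) (𝓝[>] 1) (𝓝 (dedekindZeta_residue F)) := by
  have h := tendsto_sub_one_mul_dedekindZeta_nhdsGT F
  have h' := (Complex.continuous_re.tendsto _).comp h
  simp only [Complex.ofReal_re] at h'
  refine h'.congr' ?_
  filter_upwards [self_mem_nhdsWithin] with s hs
  have hs0 : s ≠ 0 := by linarith [Set.mem_Ioi.mp hs]
  simp [dedekindZeta_eq F hs0]

private lemma summable_count {s : ℝ} (hs : 1 < s) :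
    Summable fun n : ℕ ↦ (idealCount F n : ℝ) * (n : ℝ) ^ (-s) := by
  have hev : ∀ᶠ t : ℝ in 𝓝[>] 1, (t - 1) * zetaSum F t ≠ 0 :=
    (tendsto_zetaSum F).eventually_ne (dedekindZeta_residue_ne_zero F)
  have hlt : ∀ᶠ t : ℝ in 𝓝[>] 1, t < s := mem_nhdsWithin_of_mem_nhds (Iio_mem_nhds hs)
  obtain ⟨t, ht, hts, ht1⟩ :=
    (hev.and (hlt.and self_mem_nhdsWithin)).exists
  have hsum : Summable fun n : ℕ ↦ (idealCount F n : ℝ) * (n : ℝ) ^ (-t) := by
    by_contra hns
    exact ht (by rw [zetaSum, tsum_eq_zero_of_not_summable hns, mul_zero])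
  refine hsum.of_nonneg_of_le (fun n ↦ by positivity) fun n ↦ ?_
  rcases eq_or_ne n 0 with rfl | hn
  · simp [Real.zero_rpow (neg_ne_zero.mpr (ne_of_gt (lt_trans one_pos hs))),
      Real.zero_rpow (neg_ne_zero.mpr (ne_of_gt (lt_trans one_pos (Set.mem_Ioi.mp ht1))))]
  · refine mul_le_mul_of_nonneg_left ?_ (by positivity)
    exact Real.rpow_le_rpow_of_exponent_le (by exact_mod_cast Nat.one_le_iff_ne_zero.mpr hn)
      (by linarith)

private lemma finite_fiber (n : ℕ) : Finite {I : Ideal (𝓞 F) // Ideal.absNorm I = n} :=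
  (Ideal.finite_setOfPred_absNorm_eq n).to_subtype

private lemma tsum_fiber (s : ℝ) (n : ℕ) :
    ∑' I : {I : Ideal (𝓞 F) // Ideal.absNorm I = n}, wt F s I.1 =
      (idealCount F n : ℝ) * (n : ℝ) ^ (-s) := by
  have := finite_fiber F n
  rw [tsum_congr (fun I : {I : Ideal (𝓞 F) // Ideal.absNorm I = n} ↦
    show wt F s I.1 = (n : ℝ) ^ (-s) by rw [wt, I.2]), tsum_const]
  simp [idealCount]

private lemma summable_wt {s : ℝ} (hs : 1 < s) : Summable (wt F s) := by
  rw [← (Equiv.sigmaFiberEquiv (Ideal.absNorm : Ideal (𝓞 F) → ℕ)).summable_iff,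
    summable_sigma_of_nonneg (fun x ↦ by exact wt_nonneg F s _)]
  refine ⟨fun n ↦ ?_, ?_⟩
  · have := finite_fiber F n
    exact Summable.of_finite
  · exact (summable_count F hs).congr fun n ↦ (tsum_fiber F s n).symm

private lemma tsum_wt {s : ℝ} (hs : 1 < s) : ∑' I, wt F s I = zetaSum F s := by
  rw [← (Equiv.sigmaFiberEquiv (Ideal.absNorm : Ideal (𝓞 F) → ℕ)).tsum_eq]
  have hs' : Summable fun c : (n : ℕ) × {I : Ideal (𝓞 F) // Ideal.absNorm I = n} ↦
      wt F s ((Equiv.sigmaFiberEquiv (Ideal.absNorm : Ideal (𝓞 F) → ℕ)) c) :=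
    (Equiv.sigmaFiberEquiv _).summable_iff.mpr (summable_wt F hs)
  rw [hs'.tsum_sigma' fun n ↦ (by have := finite_fiber F n; exact Summable.of_finite)]
  exact tsum_congr fun n ↦ tsum_fiber F s n

private lemma sum_wt_le {s : ℝ} (hs : 1 < s) (J : Finset (Ideal (𝓞 F))) :
    ∑ I ∈ J, wt F s I ≤ zetaSum F s :=
  tsum_wt F hs ▸ (summable_wt F hs).sum_le_tsum J fun I _ ↦ wt_nonneg F s I

private lemma wt_mul (s : ℝ) (I J : Ideal (𝓞 F)) : wt F s (I * J) = wt F s I * wt F s J := by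
  simp [wt, Real.mul_rpow]

private lemma wt_one (s : ℝ) : wt F s 1 = 1 := by simp [wt]

private lemma wt_prod (s : ℝ) {ι : Type*} (T : Finset ι) (f : ι → Ideal (𝓞 F)) :
    wt F s (∏ i ∈ T, f i) = ∏ i ∈ T, wt F s (f i) := by
  classical
  induction T using Finset.induction with
  | empty => rw [Finset.prod_empty, Finset.prod_empty, wt_one]
  | insert a T ha ih => rw [Finset.prod_insert ha, Finset.prod_insert ha, wt_mul, ih]

private lemma wt_pow (s : ℝ) (I : Ideal (𝓞 F)) (k : ℕ) : wt F s (I ^ k) = wt F s I ^ k := by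
  induction k with
  | zero => rw [pow_zero, pow_zero, wt_one]
  | succ k ih => rw [pow_succ, wt_mul, ih, pow_succ]

private lemma two_le_absNorm {I : Ideal (𝓞 F)} (hI : Prime I) : 2 ≤ Ideal.absNorm I := by
  have h0 : Ideal.absNorm I ≠ 0 := by
    rw [Ne, Ideal.absNorm_eq_zero_iff]
    exact hI.ne_zero
  have h1 : Ideal.absNorm I ≠ 1 := by
    rw [Ne, Ideal.absNorm_eq_one_iff, ← Ideal.one_eq_top]
    exact hI.ne_one
  omega

private lemma wt_le_half {s : ℝ} (hs : 1 ≤ s) {I : Ideal (𝓞 F)} (hI : Prime I) :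
    wt F s I ≤ 1 / 2 := by
  have h2 : (2 : ℝ) ≤ Ideal.absNorm I := by exact_mod_cast two_le_absNorm F hI
  calc wt F s I ≤ (2 : ℝ) ^ (-s) :=
        Real.rpow_le_rpow_of_nonpos two_pos h2 (by linarith)
    _ ≤ (2 : ℝ) ^ (-1 : ℝ) := Real.rpow_le_rpow_of_exponent_le one_le_two (by linarith)
    _ = 1 / 2 := by rw [Real.rpow_neg_one, one_div]

private lemma sum_wt_sq_le {s : ℝ} (hs : 1 ≤ s) (T : Finset (Ideal (𝓞 F)))
    (hT : ∀ P ∈ T, Prime P) : ∑ P ∈ T, wt F s P ^ 2 ≤ zetaSum F 2 := by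
  refine le_trans (Finset.sum_le_sum fun P hP ↦ ?_) (sum_wt_le F one_lt_two T)
  have h1 : (1 : ℝ) ≤ Ideal.absNorm P := by
    exact_mod_cast le_trans one_le_two (two_le_absNorm F (hT P hP))
  rw [sq, wt, ← Real.rpow_add (by linarith)]
  exact Real.rpow_le_rpow_of_exponent_le h1 (by linarith)

open UniqueFactorizationMonoid in
private lemma prod_one_add_le {s : ℝ} (hs : 1 < s) (T : Finset (Ideal (𝓞 F)))
    (hT : ∀ P ∈ T, Prime P) : ∏ P ∈ T, (1 + wt F s P) ≤ zetaSum F s := by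
  classical
  rw [Finset.prod_one_add]
  have hinj : Set.InjOn (fun U : Finset (Ideal (𝓞 F)) ↦ ∏ P ∈ U, P) T.powerset := by
    have key : ∀ U ∈ T.powerset, normalizedFactors (∏ P ∈ U, P) = U.val := by
      intro U hU
      have h : ∀ P ∈ U.val, Prime P := fun P hP ↦ hT P (Finset.mem_powerset.mp hU hP)
      rw [Finset.prod_eq_multiset_prod, Multiset.map_id']
      exact Multiset.rel_eq.mp ((Multiset.Rel.mono (factors_unique
        (fun x hx ↦ irreducible_of_normalized_factor x hx) (fun x hx ↦ (h x hx).irreducible)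
        (prod_normalizedFactors (Multiset.prod_ne_zero (fun h0 ↦ (h 0 h0).ne_zero rfl)))))
        fun a _ b _ hab ↦ associated_iff_eq.mp hab)
    intro U hU V hV hUV
    exact Finset.val_inj.mp (by rw [← key U hU, ← key V hV]; exact congrArg _ hUV)
  calc ∑ U ∈ T.powerset, ∏ P ∈ U, wt F s P
      = ∑ U ∈ T.powerset, wt F s (∏ P ∈ U, P) := by simp [wt_prod]
    _ = ∑ I ∈ T.powerset.image fun U ↦ ∏ P ∈ U, P, wt F s I :=
        (Finset.sum_image hinj).symm
    _ ≤ zetaSum F s := sum_wt_le F hs _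

private lemma sum_primes_le_log {s : ℝ} (hs : 1 < s) (T : Finset (Ideal (𝓞 F)))
    (hT : ∀ P ∈ T, Prime P) :
    ∑ P ∈ T, wt F s P ≤ Real.log (zetaSum F s) + zetaSum F 2 := by
  have hlog : ∑ P ∈ T, Real.log (1 + wt F s P) ≤ Real.log (zetaSum F s) := by
    have hpos : ∀ P ∈ T, (0 : ℝ) < 1 + wt F s P := fun P _ ↦ by linarith [wt_nonneg F s P]
    rw [← Real.log_prod (fun P hP ↦ (hpos P hP).ne')]
    exact Real.log_le_log (Finset.prod_pos hpos) (prod_one_add_le F hs T hT)
  have hx : ∀ P ∈ T, wt F s P ≤ Real.log (1 + wt F s P) + wt F s P ^ 2 := fun P _ ↦ by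
    have h0 := wt_nonneg F s P
    have h1 := Real.one_sub_inv_le_log_of_pos (show (0:ℝ) < 1 + wt F s P by linarith)
    have h2 : wt F s P - wt F s P ^ 2 ≤ 1 - (1 + wt F s P)⁻¹ := by
      rw [← sub_nonneg]
      have h3 : 0 < 1 + wt F s P := by linarith
      have : 1 - (1 + wt F s P)⁻¹ - (wt F s P - wt F s P ^ 2) = wt F s P ^ 3 / (1 + wt F s P) := by
        field_simp; ring
      rw [this]; positivity
    linarith
  calc ∑ P ∈ T, wt F s P ≤ ∑ P ∈ T, (Real.log (1 + wt F s P) + wt F s P ^ 2) :=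
        Finset.sum_le_sum hx
    _ ≤ _ := by rw [Finset.sum_add_distrib]; linarith [sum_wt_sq_le F hs.le T hT]

/-- The term `N(P)^{-s}` restricted to prime ideals. -/
private def primeWt (s : ℝ) (P : {P : Ideal (𝓞 F) // Prime P}) : ℝ := wt F s P.1

private lemma summable_primeWt {s : ℝ} (hs : 1 < s) : Summable (primeWt F s) :=
  (summable_wt F hs).subtype _

private lemma tsum_primeWt_le {s : ℝ} (hs : 1 < s) :
    ∑' P, primeWt F s P ≤ Real.log (zetaSum F s) + zetaSum F 2 := by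
  classical
  refine (summable_primeWt F hs).tsum_le_of_sum_le fun T ↦ ?_
  have := sum_primes_le_log F hs (T.map ⟨Subtype.val, Subtype.val_injective⟩)
    (fun P hP ↦ by obtain ⟨Q, -, rfl⟩ := Finset.mem_map.mp hP; exact Q.2)
  simpa [Finset.sum_map, primeWt] using this

open UniqueFactorizationMonoid in
private lemma sum_wt_le_exp {s : ℝ} (hs : 1 < s) (J : Finset (Ideal (𝓞 F))) :
    ∑ I ∈ J, wt F s I ≤ Real.exp ((∑' P, primeWt F s P) + 2 * zetaSum F 2) := by
  classical
  have hs0 : s ≠ 0 := by linarith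
  set J' := J.filter (fun I ↦ I ≠ ⊥) with hJ'
  have hJJ' : ∑ I ∈ J, wt F s I = ∑ I ∈ J', wt F s I := by
    refine (Finset.sum_filter_of_ne (p := fun I ↦ I ≠ ⊥) fun I _ hI h0 ↦ hI ?_).symm
    subst h0
    simp [wt, Real.zero_rpow (neg_ne_zero.mpr hs0)]
  set T := J'.biUnion fun I ↦ (normalizedFactors I).toFinset
  have hT : ∀ P ∈ T, Prime P := fun P hP ↦ by
    obtain ⟨I, -, hI⟩ := Finset.mem_biUnion.mp hP
    exact prime_of_normalized_factor P (Multiset.mem_toFinset.mp hI)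
  set M := J'.sup (fun I ↦ (normalizedFactors I).card) + 1
  let e : Ideal (𝓞 F) → (∀ P ∈ T, ℕ) := fun I P _ ↦ (normalizedFactors I).count P
  have hrec : ∀ I ∈ J', I = ∏ P ∈ T.attach, P.1 ^ e I P.1 P.2 := by
    intro I hI
    have h0 : I ≠ 0 := (Finset.mem_filter.mp hI).2
    have hsub : (normalizedFactors I).toFinset ⊆ T := fun P hP ↦
      Finset.mem_biUnion.mpr ⟨I, hI, hP⟩
    rw [Finset.prod_attach T (fun P ↦ P ^ (normalizedFactors I).count P),
      ← Finset.prod_multiset_count_of_subset _ _ hsub]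
    exact (associated_iff_eq.mp (prod_normalizedFactors h0)).symm
  have hmem : ∀ I ∈ J', e I ∈ T.pi fun _ ↦ Finset.range M := fun I hI ↦
    Finset.mem_pi.mpr fun P _ ↦ Finset.mem_range.mpr <| Nat.lt_succ_of_le <|
      le_trans (Multiset.count_le_card _ _) (Finset.le_sup (f := fun I ↦
        (normalizedFactors I).card) hI)
  have hinj : Set.InjOn e J' := fun I hI K hK hIK ↦ by
    rw [hrec I hI, hrec K hK, hIK]
  calc ∑ I ∈ J, wt F s I
      = ∑ I ∈ J', ∏ P ∈ T.attach, wt F s P.1 ^ e I P.1 P.2 := by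
        rw [hJJ']
        refine Finset.sum_congr rfl fun I hI ↦ ?_
        conv_lhs => rw [hrec I hI]
        simp [wt_prod, wt_pow]
    _ = ∑ f ∈ J'.image e, ∏ P ∈ T.attach, wt F s P.1 ^ f P.1 P.2 :=
        (Finset.sum_image (f := fun f : ∀ P ∈ T, ℕ ↦
          ∏ P ∈ T.attach, wt F s P.1 ^ f P.1 P.2) hinj).symm
    _ ≤ ∑ f ∈ T.pi fun _ ↦ Finset.range M, ∏ P ∈ T.attach, wt F s P.1 ^ f P.1 P.2 := by
        refine Finset.sum_le_sum_of_subset_of_nonneg ?_ fun f _ _ ↦
          Finset.prod_nonneg fun P _ ↦ pow_nonneg (wt_nonneg F s _) _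
        intro f hf
        obtain ⟨I, hI, rfl⟩ := Finset.mem_image.mp hf
        exact hmem I hI
    _ = ∏ P ∈ T, ∑ k ∈ Finset.range M, wt F s P ^ k :=
        (Finset.prod_sum T (fun _ ↦ Finset.range M) (fun P k ↦ wt F s P ^ k)).symm
    _ ≤ ∏ P ∈ T, Real.exp (wt F s P + 2 * wt F s P ^ 2) := by
        refine Finset.prod_le_prod (fun P _ ↦ Finset.sum_nonneg fun k _ ↦
          pow_nonneg (wt_nonneg F s _) _) fun P hP ↦ ?_
        have h0 := wt_nonneg F s P
        have h2 := wt_le_half F hs.le (hT P hP)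
        have hgeo : ∑ k ∈ Finset.range M, wt F s P ^ k ≤ (1 - wt F s P)⁻¹ := by
          rw [← tsum_geometric_of_lt_one h0 (by linarith)]
          exact (summable_geometric_of_lt_one h0 (by linarith)).sum_le_tsum _
            fun k _ ↦ pow_nonneg h0 _
        refine hgeo.trans (le_trans ?_ (Real.add_one_le_exp _))
        rw [inv_le_iff_one_le_mul₀ (by linarith)]
        nlinarith
    _ = Real.exp (∑ P ∈ T, (wt F s P + 2 * wt F s P ^ 2)) := (Real.exp_sum T _).symm
    _ ≤ _ := by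
        refine Real.exp_le_exp.mpr ?_
        rw [Finset.sum_add_distrib, ← Finset.mul_sum]
        have h1 : ∑ P ∈ T, wt F s P ≤ ∑' P, primeWt F s P := by
          rw [← Finset.sum_subtype_of_mem (fun P ↦ wt F s P) hT]
          exact (summable_primeWt F hs).sum_le_tsum _ fun P _ ↦ wt_nonneg F s _
        linarith [sum_wt_sq_le F hs.le T hT]

private lemma log_zetaSum_le {s : ℝ} (hs : 1 < s) (hpos : 0 < zetaSum F s) :
    Real.log (zetaSum F s) ≤ (∑' P, primeWt F s P) + 2 * zetaSum F 2 := by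
  rw [Real.log_le_iff_le_exp hpos, ← tsum_wt F hs]
  exact (summable_wt F hs).tsum_le_of_sum_le (sum_wt_le_exp F hs)


open UniqueFactorizationMonoid in
/-- The primes of non-prime norm contribute `O(1)`. -/
private lemma sum_nonprimeNorm_le {s : ℝ} (hs : 1 ≤ s) (T : Finset (Ideal (𝓞 F)))
    (hT : ∀ P ∈ T, Prime P ∧ ¬ (Ideal.absNorm P).Prime) :
    ∑ P ∈ T, wt F s P ≤ (Module.finrank ℤ (𝓞 F) : ℝ) * ∑' l : ℕ, 1 / (l : ℝ) ^ 2 := by
  classical
  have hkey : ∀ P ∈ T, ∃ l : ℕ, l.Prime ∧ (l : 𝓞 F) ∈ P ∧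
      (l : ℝ) ^ 2 ≤ Ideal.absNorm P ∧ l ^ 2 ≤ Ideal.absNorm P := by
    intro P hP
    obtain ⟨hPp, hnp⟩ := hT P hP
    have hprime : P.IsPrime := Ideal.isPrime_of_prime hPp
    have hN := two_le_absNorm F hPp
    have hmem : ((Ideal.absNorm P : ℕ) : 𝓞 F) ∈ P := Ideal.absNorm_mem P
    have hex : ∃ l ∈ (Ideal.absNorm P).primeFactorsList, (l : 𝓞 F) ∈ P := by
      have h : (((Ideal.absNorm P).primeFactorsList.map (Nat.cast : ℕ → 𝓞 F)).prod) ∈ P := by
        rw [← Nat.cast_list_prod, Nat.prod_primeFactorsList (by omega)]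
        exact hmem
      rw [← Multiset.prod_coe] at h
      obtain ⟨a, ha, haP⟩ := (hprime.multiset_prod_mem_iff_exists_mem _).mp h
      obtain ⟨l, hl, rfl⟩ := List.mem_map.mp ha
      exact ⟨l, hl, haP⟩
    obtain ⟨l, hl, hlP⟩ := hex
    have hlprime := Nat.prime_of_mem_primeFactorsList hl
    have hdvd : Ideal.absNorm P ∣ l ^ Module.finrank ℤ (𝓞 F) := by
      have := Ideal.absNorm_dvd_absNorm_of_le
        (show Ideal.span {(l : 𝓞 F)} ≤ P from (Ideal.span_singleton_le_iff_mem P).mpr hlP)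
      rwa [Ideal.absNorm_span_natCast] at this
    obtain ⟨f, -, hf⟩ := (Nat.dvd_prime_pow hlprime).mp hdvd
    have hf2 : 2 ≤ f := by
      rcases f with - | - | f
      · simp [hf] at hN
      · exact absurd (by simpa [hf] using hlprime) hnp
      · omega
    have hle : l ^ 2 ≤ Ideal.absNorm P := hf ▸ Nat.pow_le_pow_right hlprime.pos hf2
    exact ⟨l, hlprime, hlP, by exact_mod_cast hle, hle⟩
  choose! l hlp hlP hlN hlN' using hkey
  rw [← Finset.sum_fiberwise_of_maps_to (t := T.image l) (g := l)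
    (fun P hP ↦ Finset.mem_image_of_mem l hP)]
  have hsummable : Summable fun l : ℕ ↦ 1 / (l : ℝ) ^ 2 :=
    Real.summable_one_div_nat_pow.mpr one_lt_two
  calc ∑ j ∈ T.image l, ∑ P ∈ T.filter (fun P ↦ l P = j), wt F s P
      ≤ ∑ j ∈ T.image l, (Module.finrank ℤ (𝓞 F) : ℝ) * (1 / (j : ℝ) ^ 2) := by
        refine Finset.sum_le_sum fun j hj ↦ ?_
        obtain ⟨P₀, hP₀, rfl⟩ := Finset.mem_image.mp hj
        set U := T.filter (fun P ↦ l P = l P₀) with hU
        have hjp : (l P₀).Prime := hlp P₀ hP₀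
        have hcard : U.card ≤ Module.finrank ℤ (𝓞 F) := by
          have hdvd : ∏ P ∈ U, P ∣ Ideal.span {((l P₀ : ℕ) : 𝓞 F)} := by
            refine Finset.prod_primes_dvd _ (fun P hP ↦ (hT P (Finset.mem_filter.mp hP).1).1)
              fun P hP ↦ ?_
            obtain ⟨hPT, hPl⟩ := Finset.mem_filter.mp hP
            rw [Ideal.dvd_span_singleton, ← hPl]
            exact hlP P hPT
          have h1 := map_dvd (Ideal.absNorm (S := 𝓞 F)) hdvd
          rw [Ideal.absNorm_span_natCast, map_prod] at h1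
          have h2 : (l P₀ ^ 2) ^ U.card ≤ ∏ P ∈ U, Ideal.absNorm P := by
            rw [← Finset.prod_const]
            refine Finset.prod_le_prod (fun _ _ ↦ Nat.zero_le _) fun P hP ↦ ?_
            obtain ⟨hPT, hPl⟩ := Finset.mem_filter.mp hP
            exact hPl ▸ hlN' P hPT
          have h3 := h2.trans (Nat.le_of_dvd (pow_pos hjp.pos _) h1)
          rw [← pow_mul] at h3
          have h4 := (Nat.pow_le_pow_iff_right hjp.one_lt).mp h3
          omega
        calc ∑ P ∈ U, wt F s P ≤ ∑ _P ∈ U, 1 / (l P₀ : ℝ) ^ 2 := by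
              refine Finset.sum_le_sum fun P hP ↦ ?_
              obtain ⟨hPT, hPl⟩ := Finset.mem_filter.mp hP
              have hpos : (0 : ℝ) < (l P₀ : ℝ) ^ 2 := by
                have : (0 : ℝ) < (l P₀ : ℝ) := by exact_mod_cast hjp.pos
                positivity
              have hle : (l P₀ : ℝ) ^ 2 ≤ Ideal.absNorm P := hPl ▸ hlN P hPT
              calc wt F s P ≤ (Ideal.absNorm P : ℝ) ^ (-1 : ℝ) :=
                    Real.rpow_le_rpow_of_exponent_le (by
                      have h2 := two_le_absNorm F (hT P hPT).1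
                      exact_mod_cast (le_trans one_le_two h2)) (by linarith)
                _ ≤ 1 / (l P₀ : ℝ) ^ 2 := by
                    rw [Real.rpow_neg_one, ← one_div]
                    exact one_div_le_one_div_of_le hpos hle
          _ ≤ _ := by
              rw [Finset.sum_const, nsmul_eq_mul]
              exact mul_le_mul_of_nonneg_right (by exact_mod_cast hcard) (by positivity)
    _ ≤ _ := by
        rw [← Finset.mul_sum]
        exact mul_le_mul_of_nonneg_left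
          (hsummable.sum_le_tsum _ fun i _ ↦ by positivity) (Nat.cast_nonneg _)

/-- Ideals of prime norm, fibred over the norm. -/
private def primeNormEquiv : {P : {P : Ideal (𝓞 F) // Prime P} // (Ideal.absNorm P.1).Prime} ≃
    (ℓ : Nat.Primes) × {I : Ideal (𝓞 F) // Ideal.absNorm I = ℓ} where
  toFun P := ⟨⟨Ideal.absNorm P.1.1, P.2⟩, P.1.1, rfl⟩
  invFun x := ⟨⟨x.2.1, by
    have hp : (Ideal.absNorm x.2.1).Prime := x.2.2.symm ▸ x.1.2
    refine Ideal.prime_of_isPrime ?_ (Ideal.isPrime_of_irreducible_absNorm hp)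
    intro h0
    rw [h0, Ideal.absNorm_bot] at hp
    exact Nat.not_prime_zero hp⟩, x.2.2.symm ▸ x.1.2⟩
  left_inv P := rfl
  right_inv := by rintro ⟨⟨ℓ, hℓ⟩, I, hI⟩; obtain rfl : Ideal.absNorm I = ℓ := hI; rfl

private lemma hasSum_idealCount {s : ℝ} (hs : 1 < s) :
    HasSum (fun ℓ : Nat.Primes ↦ (idealCount F ℓ : ℝ) * (ℓ : ℝ) ^ (-s))
      (∑' P : {P : {P : Ideal (𝓞 F) // Prime P} // (Ideal.absNorm P.1).Prime},
        primeWt F s P.1) := by
  have h : Summable fun P : {P : {P : Ideal (𝓞 F) // Prime P} // (Ideal.absNorm P.1).Prime} ↦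
      primeWt F s P.1 := (summable_primeWt F hs).subtype _
  have h' := (primeNormEquiv F).symm.hasSum_iff.mpr h.hasSum
  refine h'.sigma fun ℓ ↦ ?_
  have := finite_fiber F ℓ
  rw [← tsum_fiber F s ℓ]
  exact (Summable.of_finite (f := fun I : {I : Ideal (𝓞 F) // Ideal.absNorm I = ℓ} ↦
    wt F s I.1)).hasSum

theorem exists_abs_tsum_idealCount_sub_log_le :
    ∃ C : ℝ, ∀ᶠ s in 𝓝[>] (1 : ℝ),
      Summable (fun ℓ : Nat.Primes ↦ (idealCount F ℓ : ℝ) * (ℓ : ℝ) ^ (-s)) ∧
      |(∑' ℓ : Nat.Primes, (idealCount F ℓ : ℝ) * (ℓ : ℝ) ^ (-s)) - Real.log (1 / (s - 1))| ≤ C := by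
  classical
  set R : ℝ := (Module.finrank ℤ (𝓞 F) : ℝ) * ∑' l : ℕ, 1 / (l : ℝ) ^ 2
  set Λ : ℝ := Real.log (dedekindZeta_residue F)
  have hres := dedekindZeta_residue_pos F
  have hlog : Tendsto (fun s : ℝ ↦ Real.log ((s - 1) * zetaSum F s)) (𝓝[>] 1) (𝓝 Λ) :=
    ((Real.continuousAt_log hres.ne').tendsto).comp (tendsto_zetaSum F)
  refine ⟨|Λ| + 1 + 2 * zetaSum F 2 + R, ?_⟩
  filter_upwards [(tendsto_zetaSum F).eventually (lt_mem_nhds hres),
    hlog.eventually (Metric.ball_mem_nhds Λ one_pos), self_mem_nhdsWithin] with s hpos hball hs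
  have hs1 : 1 < s := hs
  have hz : 0 < zetaSum F s := (mul_pos_iff_of_pos_left (by linarith)).mp hpos
  have hsum := hasSum_idealCount F hs1
  refine ⟨hsum.summable, ?_⟩
  rw [hsum.tsum_eq]
  set B := ∑' P : {P : {P : Ideal (𝓞 F) // Prime P} // (Ideal.absNorm P.1).Prime},
    primeWt F s P.1
  have hBle : B ≤ ∑' P, primeWt F s P :=
    (summable_primeWt F hs1).tsum_subtype_le _
      {P : {P : Ideal (𝓞 F) // Prime P} | (Ideal.absNorm P.1).Prime} fun P ↦ wt_nonneg F s _
  have hBge : ∑' P, primeWt F s P ≤ B + R := by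
    rw [← ((summable_primeWt F hs1).subtype _).tsum_add_tsum_compl
      (s := {P : {P : Ideal (𝓞 F) // Prime P} | (Ideal.absNorm P.1).Prime})
      ((summable_primeWt F hs1).subtype _)]
    refine add_le_add le_rfl (((summable_primeWt F hs1).subtype _).tsum_le_of_sum_le fun T ↦ ?_)
    have := sum_nonprimeNorm_le F hs1.le
      (T.map ⟨fun P ↦ P.1.1, fun P Q h ↦ Subtype.ext (Subtype.ext h)⟩) fun I hI ↦ by
        obtain ⟨P, -, rfl⟩ := Finset.mem_map.mp hI
        exact ⟨P.1.2, P.2⟩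
    rw [Finset.sum_map] at this
    exact this
  have h1 := tsum_primeWt_le F hs1
  have h2 := log_zetaSum_le F hs1 hz
  have hL : Real.log ((s - 1) * zetaSum F s) =
      Real.log (zetaSum F s) - Real.log (1 / (s - 1)) := by
    rw [Real.log_mul (by linarith) hz.ne', one_div, Real.log_inv]
    ring
  have hb : |Real.log ((s - 1) * zetaSum F s) - Λ| < 1 := by
    simpa [Real.dist_eq] using hball
  have hR : 0 ≤ R := mul_nonneg (Nat.cast_nonneg _) (tsum_nonneg fun l ↦ by positivity)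
  have hz2 : 0 ≤ zetaSum F 2 := tsum_nonneg fun n ↦ by positivity
  obtain ⟨hb1, hb2⟩ := abs_lt.mp hb
  rw [abs_le]
  constructor <;> cases abs_cases Λ <;> linarith

end Fermat.Agent.Density
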