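import Fermat.Agent.Density.Unramified
import Mathlib.RingTheory.DedekindDomain.Ideal.Lemmas

/-!
# Degree one primes of a fixed field versus fixed cosets of the Frobenius
-/

open NumberField
open scoped Pointwise

namespace Fermat.Agent.Density

set_option maxHeartbeats 400000

variable {K : Type*} [Field K] [NumberField K]

local notation "G" => (K ≃ₐ[ℚ] K)

/-- Galois group of `K` over the fixed field of a subgroup. -/
lemma isGaloisGroup_fixedField [IsGalois ℚ K] (D : Subgroup (K ≃ₐ[ℚ] K)) :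
    IsGaloisGroup D (IntermediateField.fixedField D) K :=
  IsGaloisGroup.subgroup (K ≃ₐ[ℚ] K) ℚ K D

variable {D : Subgroup (K ≃ₐ[ℚ] K)} (F : Type*) [Field F] [NumberField F] [Algebra F K]
  [IsGaloisGroup D F K]

lemma smul_algebraMap_fixed (d : D) (a : 𝓞 F) :
    (d : G) • algebraMap (𝓞 F) (𝓞 K) a = algebraMap (𝓞 F) (𝓞 K) a := by
  apply RingOfIntegers.ext
  exact (smul_algebraMap d (a : F) : d • algebraMap F K a = algebraMap F K a)

lemma smulCommClass_ringOfIntegers : SMulCommClass D (𝓞 F) (𝓞 K) := by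
  refine ⟨fun d a x => ?_⟩
  rw [Algebra.smul_def, Algebra.smul_def, smul_mul']
  exact congrArg (· * _) (smul_algebraMap_fixed F d a)

lemma isInvariant_ringOfIntegers : Algebra.IsInvariant (𝓞 F) (𝓞 K) D := by
  refine ⟨fun x hx => ?_⟩
  obtain ⟨y, hy⟩ := (IsGaloisGroup.isInvariant : Algebra.IsInvariant F K D).isInvariant (x : K)
    fun d => congrArg (fun z : 𝓞 K => (z : K)) (hx d)
  refine ⟨⟨y, ?_⟩, RingOfIntegers.ext hy⟩
  exact (isIntegral_algebraMap_iff (algebraMap F K).injective).mp (hy ▸ x.2)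

lemma under_smul_of_mem (d : D) (Q : Ideal (𝓞 K)) :
    ((d : G) • Q).under (𝓞 F) = Q.under (𝓞 F) := by
  ext a
  simp only [Ideal.under, Ideal.mem_comap]
  conv_lhs => rw [← smul_algebraMap_fixed F d a]
  exact Ideal.smul_mem_pointwise_smul_iff

variable [IsGalois ℚ K]

/-- If the Frobenius at `P` fixes the fixed field, the prime below has prime norm. -/
lemma absNorm_under_eq {l : ℕ} (hl : l.Prime) (P : Ideal (𝓞 K)) [P.IsPrime]
    (hP : (l : 𝓞 K) ∈ P) {σ : G} (hσ : IsArithFrobAt ℤ σ P) (hσD : σ ∈ D) :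
    Ideal.absNorm (P.under (𝓞 F)) = l := by
  classical
  set q := P.under (𝓞 F) with hq_def
  have hlq : (l : 𝓞 F) ∈ q := by
    rw [hq_def, Ideal.under, Ideal.mem_comap, map_natCast]
    exact hP
  have hfin : Finite (𝓞 F ⧸ q) :=
    finite_quotient_of_natCast_mem hl hlq
  haveI : q.IsPrime := inferInstance
  haveI : q.IsMaximal :=
    Ideal.Quotient.maximal_of_isField _ (Finite.isField_of_domain (𝓞 F ⧸ q))
  letI := Ideal.Quotient.field q
  letI : Fintype (𝓞 F ⧸ q) := Fintype.ofFinite _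
  -- every residue class is a root of `X ^ l - X`
  have hroot : ∀ x : 𝓞 F ⧸ q, x ^ l = x := by
    intro x
    obtain ⟨a, rfl⟩ := Ideal.Quotient.mk_surjective x
    rw [← map_pow, Ideal.Quotient.eq, hq_def, Ideal.under, Ideal.mem_comap, map_sub, map_pow]
    have := (isArithFrobAt_iff hl hP).mp hσ (algebraMap _ (𝓞 K) a)
    rw [smul_algebraMap_fixed F ⟨σ, hσD⟩] at this
    exact (Submodule.neg_mem_iff P).mp (by rwa [neg_sub])
  have hle : Fintype.card (𝓞 F ⧸ q) ≤ l := by
    have hne : (Polynomial.X ^ l - Polynomial.X :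
        Polynomial (𝓞 F ⧸ q)) ≠ 0 := fun h0 => by
      have := congrArg (fun p : Polynomial (𝓞 F ⧸ q) => p.coeff l) h0
      simp [Polynomial.coeff_X, hl.one_lt.ne] at this
    refine (Polynomial.card_le_degree_of_subset_roots (Z := Finset.univ)
      (p := Polynomial.X ^ l - Polynomial.X) ?_).trans ?_
    · intro x _
      rw [Polynomial.mem_roots hne]
      simp [hroot x]
    · exact (Polynomial.natDegree_sub_le _ _).trans
        (max_le (Polynomial.natDegree_X_pow_le _) (Polynomial.natDegree_X_le.trans hl.one_le))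
  have hcard : Ideal.absNorm q = Fintype.card (𝓞 F ⧸ q) := by
    rw [Ideal.absNorm_apply, Submodule.cardQuot_apply, Nat.card_eq_fintype_card]
  have hdvd : l ∣ Ideal.absNorm q := by
    obtain ⟨n, hn⟩ : ∃ n, Ideal.absNorm q ∣ l ^ n :=
      ⟨_, (Ideal.absNorm_dvd_absNorm_of_le ((Ideal.span_singleton_le_iff_mem q).mpr hlq)).trans
        (dvd_of_eq (Ideal.absNorm_span_natCast l))⟩
    obtain ⟨m, -, hm⟩ := (Nat.dvd_prime_pow hl).mp hn
    rcases m with _ | m
    · rw [pow_zero, Ideal.absNorm_eq_one_iff] at hm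
      exact absurd hm (Ideal.IsPrime.ne_top inferInstance)
    · exact hm ▸ dvd_pow_self l (Nat.succ_ne_zero m)
  exact le_antisymm (hcard ▸ hle)
    (Nat.le_of_dvd (hcard ▸ Fintype.card_pos) hdvd)

/-- Conversely, above a prime of norm `l` the Frobenius lies in `D` (trivial inertia). -/
lemma mem_of_absNorm_under_eq {l : ℕ} (hl : l.Prime) (P : Ideal (𝓞 K)) [P.IsPrime]
    (hP : (l : 𝓞 K) ∈ P) (hI : P.inertia G = ⊥)
    (hN : Ideal.absNorm (P.under (𝓞 F)) = l)
    {σ : G} (hσ : IsArithFrobAt ℤ σ P) : σ ∈ D := by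
  haveI := isGaloisGroup_fixedField D
  haveI := finite_quotient_of_natCast_mem hl hP
  haveI := smulCommClass_ringOfIntegers (D := D) F
  haveI := isInvariant_ringOfIntegers (D := D) F
  obtain ⟨τ, hτ⟩ := IsArithFrobAt.exists_of_isInvariant
    (𝓞 F) D P
  have hτ' : IsArithFrobAt ℤ (τ : G) P := by
    rw [isArithFrobAt_iff hl hP]
    intro x
    have := hτ x
    rw [← Submodule.cardQuot_apply, ← Ideal.absNorm_apply, hN] at this
    exact this
  exact eq_of_isArithFrobAt hI hσ hτ' ▸ τ.2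

/-- `|D|` times the number of ideals of norm `l` in the fixed field `F` of `D` is the number of
`x` with `x σ x⁻¹ ∈ D`, `σ` a Frobenius at a prime over `l` with trivial inertia. -/
theorem card_idealsOfNorm_mul_card {l : ℕ} (hl : l.Prime)
    (Q : Ideal (𝓞 K)) [Q.IsPrime] (hQ : (l : 𝓞 K) ∈ Q) (hI : Q.inertia G = ⊥)
    {σ : G} (hσ : IsArithFrobAt ℤ σ Q) :
    Nat.card {I : Ideal (𝓞 F) // Ideal.absNorm I = l} * Nat.card D
      = Nat.card {x : G // x * σ * x⁻¹ ∈ D} := by
  classical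
  -- the prime of `F` attached to `x`
  let π : {x : G // x * σ * x⁻¹ ∈ D} → {I : Ideal (𝓞 F) // Ideal.absNorm I = l} :=
    fun x => ⟨(x.1 • Q).under (𝓞 F),
      absNorm_under_eq F hl (x.1 • Q) (smul_natCast_mem hQ x.1) (hσ.conj x.1) x.2⟩
  have hπ : ∀ q, ∃ x, π x = q := by
    intro q
    haveI : q.1.IsPrime :=
      Ideal.isPrime_of_irreducible_absNorm (by rw [q.2]; exact hl)
    obtain ⟨P, hPm, hPo⟩ :=
      (inferInstance : Nonempty (Ideal.primesOver q.1 (𝓞 K))).some
    have hlP : (l : 𝓞 K) ∈ P := by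
      have h : ((Ideal.absNorm q.1 : ℕ) : 𝓞 F) ∈ q.1 := Ideal.absNorm_mem q.1
      rw [q.2, hPo.over, Ideal.under, Ideal.mem_comap, map_natCast] at h
      exact h
    obtain ⟨x, rfl⟩ := exists_smul_eq_of_natCast_mem hl Q P hQ hlP
    have hmem : x * σ * x⁻¹ ∈ D := mem_of_absNorm_under_eq F hl (x • Q) hlP
      (inertia_smul_eq_bot hI x) (by rw [← hPo.over]; exact q.2) (hσ.conj x)
    exact ⟨⟨x, hmem⟩, Subtype.ext hPo.over.symm⟩
  have hfib : ∀ (x₀ : {x : G // x * σ * x⁻¹ ∈ D}) (x : G),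
      (x • Q).under (𝓞 F)
        = (x₀.1 • Q).under (𝓞 F) ↔ x * x₀.1⁻¹ ∈ D := by
    intro x₀ x
    constructor
    · intro h
      haveI := smulCommClass_ringOfIntegers (D := D) F
      haveI := isInvariant_ringOfIntegers (D := D) F
      obtain ⟨d, hd⟩ := Algebra.IsInvariant.exists_smul_of_under_eq
        (𝓞 F) (𝓞 K) D (x₀.1 • Q) (x • Q) h.symm
      have hd' : x • Q = ((d : G) * x₀.1) • Q := by rw [mul_smul]; exact hd
      have hs : ((d : G) * x₀.1)⁻¹ * x ∈ MulAction.stabilizer G Q := by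
        rw [MulAction.mem_stabilizer_iff, mul_smul, hd', inv_smul_smul]
      rw [stabilizer_eq_zpowers hl hQ hI hσ] at hs
      obtain ⟨i, hi⟩ := Subgroup.mem_zpowers_iff.mp hs
      have : x * x₀.1⁻¹ = (d : G) * (x₀.1 * σ * x₀.1⁻¹) ^ i := by
        rw [conj_zpow, hi]
        group
      rw [this]
      exact mul_mem d.2 (D.zpow_mem x₀.2 i)
    · intro h
      rw [← under_smul_of_mem F ⟨_, h⟩ (x₀.1 • Q), ← mul_smul, inv_mul_cancel_right]
  have hcardfib : ∀ q, Nat.card {x // π x = q} = Nat.card D := by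
    intro q
    obtain ⟨x₀, rfl⟩ := hπ q
    have hiff : ∀ x, π x = π x₀ ↔ x.1 * x₀.1⁻¹ ∈ D := by
      intro x
      rw [Subtype.ext_iff]
      exact hfib x₀ x.1
    refine Nat.card_congr
      { toFun := fun x => ⟨x.1.1 * x₀.1⁻¹, (hiff x.1).mp x.2⟩
        invFun := fun d => ⟨⟨d.1 * x₀.1, by
            have : d.1 * x₀.1 * σ * (d.1 * x₀.1)⁻¹ = d.1 * (x₀.1 * σ * x₀.1⁻¹) * d.1⁻¹ := by group
            rw [this]
            exact mul_mem (mul_mem d.2 x₀.2) (inv_mem d.2)⟩,
          (hiff _).mpr (by rw [mul_inv_cancel_right]; exact d.2)⟩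
        left_inv := fun x => Subtype.ext (Subtype.ext (inv_mul_cancel_right _ _))
        right_inv := fun d => Subtype.ext (mul_inv_cancel_right _ _) }
  haveI : Finite {I : Ideal (𝓞 F) // Ideal.absNorm I = l} := Finite.of_surjective π hπ
  haveI := Fintype.ofFinite {I : Ideal (𝓞 F) // Ideal.absNorm I = l}
  rw [Nat.card_congr (Equiv.sigmaFiberEquiv π).symm, Nat.card_sigma,
    Finset.sum_congr rfl (fun q _ => hcardfib q), Finset.sum_const, Finset.card_univ,
    smul_eq_mul, ← Nat.card_eq_fintype_card]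

end Fermat.Agent.Density
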