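import Mathlib.FieldTheory.Galois.Basic
import Fermat.Prelude.Def_EllipticCurve_FrobeniusTrace
import Fermat.Agent.Density.Analytic
import Fermat.Agent.Density.DegreeOne
import Fermat.Agent.Galois.Frobenius

/-!
# Splitting law for unramified primes, in terms of Frobenius elements on `ℚ̄`
-/

noncomputable section

open NumberField
open scoped Pointwise

namespace Fermat.Agent.Density

local notation "ℚ̄" => AlgebraicClosure ℚ
local notation "Γℚ" => (AlgebraicClosure ℚ ≃ₐ[ℚ] AlgebraicClosure ℚ)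

-- `Algebra ℚ ℚ̄` elaborates to `DivisionRing.toRatAlgebra`, so restate the instances for it
local instance : Algebra.IsAlgebraic ℚ ℚ̄ := AlgebraicClosure.isAlgebraic ℚ
local instance : IsAlgClosure ℚ ℚ̄ := ⟨inferInstance, inferInstance⟩
local instance : IsGalois ℚ ℚ̄ := IsAlgClosure.isGalois ℚ ℚ̄

section Center

variable (K : IntermediateField ℚ ℚ̄) [FiniteDimensional ℚ K]

/-- The inclusion of the ring of integers of `K` into a valuation subring of `ℚ̄`. -/
def intToValuationSubring (A : ValuationSubring ℚ̄) : 𝓞 K →+* A :=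
  ((algebraMap K ℚ̄).comp (algebraMap (𝓞 K) K)).codRestrict A.toSubring fun x =>
    Galois.mem_valuationSubring_of_isIntegral_int A (x.2.map (IsScalarTower.toAlgHom ℤ K ℚ̄))

/-- The prime of `K` below a valuation subring of `ℚ̄`. -/
def center (A : ValuationSubring ℚ̄) : Ideal (𝓞 K) :=
  (IsLocalRing.maximalIdeal A).comap (intToValuationSubring K A)

instance isPrime_center (A : ValuationSubring ℚ̄) : (center K A).IsPrime :=
  Ideal.IsPrime.comap _

variable {K}

lemma mem_center {A : ValuationSubring ℚ̄} {x : 𝓞 K} :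
    x ∈ center K A ↔ ((x : K) : ℚ̄) ∈ A.nonunits := by
  rw [center, Ideal.mem_comap, ← ValuationSubring.coe_mem_nonunits_iff]
  rfl

lemma natCast_mem_center {A : ValuationSubring ℚ̄} {ℓ : ℕ} (hA : A.LiesOverPrime ℓ) :
    (ℓ : 𝓞 K) ∈ center K A := by
  rw [mem_center]
  simpa [ValuationSubring.LiesOverPrime] using hA

variable [Normal ℚ K]

lemma isArithFrobAt_restrictNormalHom {A : ValuationSubring ℚ̄} {ℓ : ℕ} (hℓ : ℓ.Prime)
    (hA : A.LiesOverPrime ℓ) {σ : Γℚ} (hσ : A.IsFrobeniusAt σ ℓ) :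
    IsArithFrobAt ℤ (AlgEquiv.restrictNormalHom K σ) (center K A) := by
  haveI : IsGalois ℚ K := ⟨⟩
  rw [isArithFrobAt_iff hℓ (natCast_mem_center hA)]
  intro x
  rw [center, Ideal.mem_comap, map_sub, map_pow]
  have h := hσ.smul_residue_eq (IsLocalRing.residue A (intToValuationSubring K A x))
  rw [← IsLocalRing.ResidueField.residue_smul, ← map_pow] at h
  have h' := Ideal.Quotient.eq.mp h
  convert h' using 2
  exact Subtype.ext (AlgEquiv.restrictNormal_commutes σ K (x : K))

lemma restrictNormalHom_mem_inertia {A : ValuationSubring ℚ̄} {τ : Γℚ}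
    (hτ : τ ∈ A.inertiaSubgroupIn ℚ) :
    AlgEquiv.restrictNormalHom K τ ∈ (center K A).inertia (K ≃ₐ[ℚ] K) := by
  obtain ⟨t, ht, rfl⟩ := Subgroup.mem_map.mp hτ
  intro x
  change intToValuationSubring K A (_ - x) ∈ IsLocalRing.maximalIdeal A
  rw [map_sub]
  have h : t • IsLocalRing.residue A (intToValuationSubring K A x)
      = IsLocalRing.residue A (intToValuationSubring K A x) :=
    RingEquiv.congr_fun (MonoidHom.mem_ker.mp ht) _
  rw [← IsLocalRing.ResidueField.residue_smul] at h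
  have h' := Ideal.Quotient.eq.mp h
  convert h' using 2
  exact Subtype.ext (AlgEquiv.restrictNormal_commutes (t : Γℚ) K (x : K))

end Center

/-- For all but finitely many primes, inertia restricts trivially to a given finite level. -/
theorem exists_finset_restrictNormalHom_inertia_eq_one (K : IntermediateField ℚ ℚ̄)
    [FiniteDimensional ℚ K] [Normal ℚ K] :
    ∃ S : Finset ℕ, ∀ ℓ : ℕ, ℓ.Prime → ℓ ∉ S → ∀ A : ValuationSubring ℚ̄, A.LiesOverPrime ℓ →
      ∀ τ ∈ A.inertiaSubgroupIn ℚ, AlgEquiv.restrictNormalHom K τ = 1 := by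
  obtain ⟨S, hS⟩ := exists_finset_inertia_eq_bot K
  refine ⟨S, fun ℓ hℓ hℓS A hA τ hτ => ?_⟩
  have := restrictNormalHom_mem_inertia (K := K) hτ
  rwa [hS ℓ hℓ hℓS (center K A) (isPrime_center K A) (natCast_mem_center hA),
    Subgroup.mem_bot] at this

/-- For all but finitely many primes `ℓ`: inertia above `ℓ` is trivial on `K`, and the number of
degree-one primes of `K^H` above `ℓ` is given by the Frobenius element. -/
theorem exists_splitting_frobenius (K : IntermediateField ℚ ℚ̄) [FiniteDimensional ℚ K]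
    [Normal ℚ K] :
    ∃ S : Finset ℕ, ∀ ℓ : ℕ, ℓ.Prime → ℓ ∉ S →
      ∃ (A : ValuationSubring ℚ̄) (σ : Γℚ), A.LiesOverPrime ℓ ∧ A.IsFrobeniusAt σ ℓ ∧
        (∀ τ ∈ A.inertiaSubgroupIn ℚ, AlgEquiv.restrictNormalHom K τ = 1) ∧
        ∀ H : Subgroup (K ≃ₐ[ℚ] K),
          idealCount (IntermediateField.fixedField H) ℓ * Nat.card H =
            Nat.card {a : K ≃ₐ[ℚ] K // a * AlgEquiv.restrictNormalHom K σ * a⁻¹ ∈ H} := by
  obtain ⟨S, hS⟩ := exists_finset_inertia_eq_bot K
  refine ⟨S, fun ℓ hℓ hℓS => ?_⟩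
  obtain ⟨A, σ, hA, hσ⟩ := Galois.exists_valuationSubring_isFrobeniusAt hℓ
  have hI : (center K A).inertia (K ≃ₐ[ℚ] K) = ⊥ :=
    hS ℓ hℓ hℓS (center K A) (isPrime_center K A) (natCast_mem_center hA)
  refine ⟨A, σ, hA, hσ, fun τ hτ => ?_, fun H => ?_⟩
  · have := restrictNormalHom_mem_inertia (K := K) hτ
    rwa [hI, Subgroup.mem_bot] at this
  · haveI : IsGalois ℚ K := ⟨⟩
    haveI := isGaloisGroup_fixedField H
    exact card_idealsOfNorm_mul_card (IntermediateField.fixedField H) hℓ (center K A)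
      (natCast_mem_center hA) hI (isArithFrobAt_restrictNormalHom hℓ hA hσ)

end Fermat.Agent.Density
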