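import Fermat.Agent.Density.Analytic
import Fermat.Agent.Density.Splitting
import Fermat.Agent.Density.GroupCount
import Fermat.Agent.Density.Conj

/-!
# The Frobenius density theorem, in the form used to replace Chebotarev

Every element of a finite quotient of `Γ_ℚ` generates the same cyclic subgroup as the image of
some Frobenius element at an arbitrarily large prime.
-/

noncomputable section

open scoped Pointwise

namespace Fermat.Agent.Density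

local notation "ℚ̄" => AlgebraicClosure ℚ
local notation "Γℚ" => (AlgebraicClosure ℚ ≃ₐ[ℚ] AlgebraicClosure ℚ)

-- `Algebra ℚ ℚ̄` elaborates to `DivisionRing.toRatAlgebra`, so restate the instances for it
local instance : Algebra.IsAlgebraic ℚ ℚ̄ := AlgebraicClosure.isAlgebraic ℚ

local instance : IsAlgClosure ℚ ℚ̄ := ⟨inferInstance, inferInstance⟩

local instance : Normal ℚ ℚ̄ := IsAlgClosure.normal ℚ ℚ̄

/-- Frobenius density: normal finite level. -/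
theorem exists_isFrobeniusAt_zpowers_eq (K : IntermediateField ℚ ℚ̄) [FiniteDimensional ℚ K]
    [Normal ℚ K] (g : Γℚ) (S : Finset ℕ) :
    ∃ ℓ : ℕ, ℓ.Prime ∧ ℓ ∉ S ∧ ∃ (A : ValuationSubring ℚ̄) (σ : Γℚ),
      A.LiesOverPrime ℓ ∧ A.IsFrobeniusAt σ ℓ ∧
      (∀ τ ∈ A.inertiaSubgroupIn ℚ, AlgEquiv.restrictNormalHom K τ = 1) ∧
      Subgroup.zpowers (AlgEquiv.restrictNormalHom K σ) =
        Subgroup.zpowers (AlgEquiv.restrictNormalHom K g) := by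
  classical
  obtain ⟨S₀, hS₀⟩ := exists_splitting_frobenius K
  choose A σ hA hσ hin hcount using fun ℓ : {ℓ : ℕ // ℓ.Prime ∧ ℓ ∉ S₀} ↦ hS₀ ℓ.1 ℓ.2.1 ℓ.2.2
  let h : Nat.Primes → (K ≃ₐ[ℚ] K) := fun ℓ ↦
    if hℓ : (ℓ : ℕ) ∈ S₀ then 1 else AlgEquiv.restrictNormalHom K (σ ⟨ℓ, ℓ.2, hℓ⟩)
  let U : Finset Nat.Primes := (S ∪ S₀).subtype Nat.Prime
  obtain ⟨ℓ, hℓU, a, ha⟩ := exists_conj_zpowers_eq_of_prime_sum h U
    (fun H ℓ ↦ idealCount (IntermediateField.fixedField H) ℓ)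
    (fun H ℓ hℓ ↦ by
      have hℓ' : (ℓ : ℕ) ∉ S₀ := fun hm ↦
        hℓ (Finset.mem_subtype.mpr (Finset.mem_union_right S hm))
      simp only [h, dif_neg hℓ']
      exact hcount ⟨ℓ, ℓ.2, hℓ'⟩ H)
    (fun H ↦ exists_abs_tsum_idealCount_sub_log_le (IntermediateField.fixedField H))
    (AlgEquiv.restrictNormalHom K g)
  have hℓS : (ℓ : ℕ) ∉ S := fun hm ↦
    hℓU (Finset.mem_subtype.mpr (Finset.mem_union_left S₀ hm))
  have hℓS₀ : (ℓ : ℕ) ∉ S₀ := fun hm ↦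
    hℓU (Finset.mem_subtype.mpr (Finset.mem_union_right S hm))
  obtain ⟨b, hb⟩ := AlgEquiv.restrictNormalHom_surjective (K₁ := K) (AlgebraicClosure ℚ) a
  set j : {ℓ : ℕ // ℓ.Prime ∧ ℓ ∉ S₀} := ⟨ℓ, ℓ.2, hℓS₀⟩
  refine ⟨ℓ, ℓ.2, hℓS, b • A j, b * σ j * b⁻¹, liesOverPrime_smul (hA j) b,
    isFrobeniusAt_conj (hσ j) b, fun τ hτ ↦ ?_, ?_⟩
  · have h1 := hin j _ (conj_inv_mem_inertiaSubgroupIn hτ)
    rw [map_mul, map_mul, map_inv] at h1
    calc AlgEquiv.restrictNormalHom K τ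
        = AlgEquiv.restrictNormalHom K b * ((AlgEquiv.restrictNormalHom K b)⁻¹ *
            AlgEquiv.restrictNormalHom K τ * AlgEquiv.restrictNormalHom K b) *
            (AlgEquiv.restrictNormalHom K b)⁻¹ := by group
      _ = 1 := by rw [h1, mul_one, mul_inv_cancel]
  · simp only [h, dif_neg hℓS₀] at ha
    rw [map_mul, map_mul, map_inv, hb]
    exact ha

/-- Frobenius density: any finite level `L`. -/
theorem exists_isFrobeniusAt_agree_pow (L : IntermediateField ℚ ℚ̄) [FiniteDimensional ℚ L]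
    (g : Γℚ) (S : Finset ℕ) :
    ∃ ℓ : ℕ, ℓ.Prime ∧ ℓ ∉ S ∧ ∃ (A : ValuationSubring ℚ̄) (σ : Γℚ),
      A.LiesOverPrime ℓ ∧ A.IsFrobeniusAt σ ℓ ∧
      (∀ τ ∈ A.inertiaSubgroupIn ℚ, ∀ x ∈ L, τ x = x) ∧
      ∃ a b : ℕ, (∀ x ∈ L, σ x = (g ^ a) x) ∧ (∀ x ∈ L, g x = (σ ^ b) x) := by
  let K : IntermediateField ℚ ℚ̄ := IntermediateField.normalClosure ℚ L ℚ̄
  have : Normal ℚ K := normalClosure.normal ℚ L ℚ̄
  have : FiniteDimensional ℚ K := normalClosure.is_finiteDimensional ℚ L ℚ̄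
  obtain ⟨ℓ, hℓ, hℓS, A, σ, hA, hσ, hin, hgen⟩ := exists_isFrobeniusAt_zpowers_eq K g S
  have key : ∀ u v : Γℚ, AlgEquiv.restrictNormalHom K u = AlgEquiv.restrictNormalHom K v →
      ∀ x ∈ L, u x = v x := by
    intro u v huv x hx
    have hxK : x ∈ K := IntermediateField.le_normalClosure L hx
    calc u x = (AlgEquiv.restrictNormalHom K u ⟨x, hxK⟩ : ℚ̄) :=
          (AlgEquiv.restrictNormal_commutes u K ⟨x, hxK⟩).symm
      _ = (AlgEquiv.restrictNormalHom K v ⟨x, hxK⟩ : ℚ̄) := by rw [huv]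
      _ = v x := AlgEquiv.restrictNormal_commutes v K ⟨x, hxK⟩
  refine ⟨ℓ, hℓ, hℓS, A, σ, hA, hσ, fun τ hτ x hx ↦ ?_, ?_⟩
  · simpa using key τ 1 (by rw [hin τ hτ, map_one]) x hx
  obtain ⟨a, ha⟩ := (mem_powers_iff_mem_zpowers).mpr
    (hgen ▸ Subgroup.mem_zpowers (AlgEquiv.restrictNormalHom K σ) :
      AlgEquiv.restrictNormalHom K σ ∈ Subgroup.zpowers (AlgEquiv.restrictNormalHom K g))
  obtain ⟨b, hb⟩ := (mem_powers_iff_mem_zpowers).mpr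
    (hgen.symm ▸ Subgroup.mem_zpowers (AlgEquiv.restrictNormalHom K g) :
      AlgEquiv.restrictNormalHom K g ∈ Subgroup.zpowers (AlgEquiv.restrictNormalHom K σ))
  exact ⟨a, b, key _ _ (by rw [map_pow]; exact ha.symm),
    key _ _ (by rw [map_pow]; exact hb.symm)⟩

/-- Frobenius density for a homomorphism factoring through a finite level. -/
theorem exists_isFrobeniusAt_map_pow {M : Type*} [Monoid M] (ρ : Γℚ →* M)
    (hρ : ∃ L : IntermediateField ℚ ℚ̄, FiniteDimensional ℚ L ∧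
      ∀ σ : Γℚ, (∀ x ∈ L, σ x = x) → ρ σ = 1)
    (g : Γℚ) (S : Finset ℕ) :
    ∃ ℓ : ℕ, ℓ.Prime ∧ ℓ ∉ S ∧ ∃ (A : ValuationSubring ℚ̄) (σ : Γℚ),
      A.LiesOverPrime ℓ ∧ A.IsFrobeniusAt σ ℓ ∧
      (∀ τ ∈ A.inertiaSubgroupIn ℚ, ρ τ = 1) ∧
      ∃ a b : ℕ, ρ σ = ρ g ^ a ∧ ρ g = ρ σ ^ b := by
  obtain ⟨L, hL, hker⟩ := hρ
  obtain ⟨ℓ, hℓ, hℓS, A, σ, hA, hσ, hin, a, b, ha, hb⟩ := exists_isFrobeniusAt_agree_pow L g S
  have key : ∀ u v : Γℚ, (∀ x ∈ L, u x = v x) → ρ u = ρ v := by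
    intro u v h
    have h1 : ρ (v⁻¹ * u) = 1 := hker _ fun x hx ↦ by
      rw [AlgEquiv.mul_apply, h x hx]
      exact v.symm_apply_apply x
    rw [← mul_inv_cancel_left v u, map_mul, h1, mul_one]
  refine ⟨ℓ, hℓ, hℓS, A, σ, hA, hσ, fun τ hτ ↦ hker τ (hin τ hτ), a, b, ?_, ?_⟩
  · rw [key σ (g ^ a) ha, map_pow]
  · rw [key g (σ ^ b) hb, map_pow]

end Fermat.Agent.Density
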