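import Fermat.Prelude.Def_GaloisRep_Adic
import Fermat.Agent.Density.BrauerNesbitt
import Fermat.Agent.Density.FrobeniusDensity

/-!
# Representations are determined by Frobenius characteristic polynomials

* `residual_charpoly_eq_of_frobenius`, `adic_charpoly_eq_of_frobenius`: characteristic polynomials
  at all but finitely many Frobenius elements determine all characteristic polynomials.
* `residual_isEquiv_of_frobenius`, `adic_isEquiv_of_frobenius`: with absolute irreducibility they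
  determine the representation up to equivalence.
* `residual_isEquiv_of_trace`, `adic_isEquiv_of_trace`: the same from traces at all elements.
-/

noncomputable section

open scoped TensorProduct

namespace Fermat.Agent.Density

local notation "ℚ̄" => AlgebraicClosure ℚ
local notation "Γℚ" => (AlgebraicClosure ℚ ≃ₐ[ℚ] AlgebraicClosure ℚ)

/-- An absolutely irreducible residual representation spans the endomorphism algebra. -/
theorem residual_span_range_eq_top {k : Type} [Field k] (ρ : ResidualGaloisRep k)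
    (hirr : ρ.IsAbsolutelyIrreducible) :
    Submodule.span k (Set.range ρ.ρ) = ⊤ :=
  have : Nontrivial ρ.V := Module.nontrivial_of_finrank_eq_succ ρ.finrank_eq
  span_range_eq_top_of_absolutelyIrreducible (AlgebraicClosure k) ρ.ρ hirr

/-- The matrices of an absolutely irreducible residual representation span. -/
theorem residual_span_toMatrix_eq_top {k : Type} [Field k] (ρ : ResidualGaloisRep k)
    (hirr : ρ.IsAbsolutelyIrreducible) {ι : Type*} [Fintype ι] [DecidableEq ι]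
    (b : Module.Basis ι k ρ.V) :
    Submodule.span k (Set.range fun g => LinearMap.toMatrixAlgEquiv b (ρ.ρ g)) = ⊤ := by
  have h := congrArg (Submodule.map (LinearMap.toMatrixAlgEquiv b).toLinearEquiv.toLinearMap)
    (residual_span_range_eq_top ρ hirr)
  rw [Submodule.map_span, Submodule.map_top, LinearEquiv.range, ← Set.range_comp] at h
  exact h

/-- The reduced matrices of a residually absolutely irreducible adic representation span. -/
theorem adic_span_map_residue_eq_top {A : Type} [CommRing A] [IsLocalRing A] (ρ : GaloisRepAdic A)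
    (hirr : ρ.residual.IsAbsolutelyIrreducible) {ι : Type*} [Fintype ι] [DecidableEq ι]
    (b : Module.Basis ι A ρ.V) :
    Submodule.span (IsLocalRing.ResidueField A) (Set.range fun g =>
      (LinearMap.toMatrixAlgEquiv b (ρ.ρ g)).map (IsLocalRing.residue A)) = ⊤ := by
  rw [← residual_span_toMatrix_eq_top ρ.residual hirr
    (Algebra.TensorProduct.basis (IsLocalRing.ResidueField A) b)]
  congr 2
  funext g
  exact (LinearMap.toMatrix_baseChange _ _ b b).symm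

/-- Carayol's theorem for residual representations. -/
theorem residual_isEquiv_of_trace {k : Type} [Field k] (ρ₁ ρ₂ : ResidualGaloisRep k)
    (hirr : ρ₁.IsAbsolutelyIrreducible)
    (h : ∀ g : Γℚ, LinearMap.trace k ρ₁.V (ρ₁.ρ g) = LinearMap.trace k ρ₂.V (ρ₂.ρ g)) :
    ρ₁.IsEquiv ρ₂ := by
  let b₁ := Module.finBasisOfFinrankEq k ρ₁.V ρ₁.finrank_eq
  let b₂ := Module.finBasisOfFinrankEq k ρ₂.V ρ₂.finrank_eq
  obtain ⟨e, he⟩ := exists_linearEquiv_of_trace_eq (RingHom.id k) b₁ b₂ ρ₁.ρ ρ₂.ρ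
    (by simpa using residual_span_toMatrix_eq_top ρ₁ hirr b₁)
    (fun g => (LinearMap.trace_eq_matrix_trace k b₁ (ρ₁.ρ g)).symm.trans
      ((h g).trans (LinearMap.trace_eq_matrix_trace k b₂ (ρ₂.ρ g))))
  exact ⟨⟨e, he⟩⟩

/-- Carayol's theorem for adic representations over a local ring. -/
theorem adic_isEquiv_of_trace {A : Type} [CommRing A] [IsLocalRing A] (ρ₁ ρ₂ : GaloisRepAdic A)
    (hirr : ρ₁.residual.IsAbsolutelyIrreducible)
    (h : ∀ g : Γℚ, ρ₁.trace g = ρ₂.trace g) :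
    ρ₁.IsEquiv ρ₂ := by
  let b₁ := Module.finBasisOfFinrankEq A ρ₁.V ρ₁.finrank_eq
  let b₂ := Module.finBasisOfFinrankEq A ρ₂.V ρ₂.finrank_eq
  obtain ⟨e, he⟩ := exists_linearEquiv_of_trace_eq (IsLocalRing.residue A) b₁ b₂ ρ₁.ρ ρ₂.ρ
    (adic_span_map_residue_eq_top ρ₁ hirr b₁)
    (fun g => (LinearMap.trace_eq_matrix_trace A b₁ (ρ₁.ρ g)).symm.trans
      ((h g).trans (LinearMap.trace_eq_matrix_trace A b₂ (ρ₂.ρ g))))
  exact ⟨⟨e, he⟩⟩

theorem residual_charpoly_eq_of_frobenius {k : Type} [Field k] (ρ₁ ρ₂ : ResidualGaloisRep k)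
    (S : Finset ℕ)
    (h : ∀ ℓ : ℕ, ℓ.Prime → ℓ ∉ S → ∀ A : ValuationSubring ℚ̄, A.LiesOverPrime ℓ →
      ∀ σ : Γℚ, A.IsFrobeniusAt σ ℓ →
        LinearMap.charpoly (ρ₁.ρ σ) = LinearMap.charpoly (ρ₂.ρ σ)) (g : Γℚ) :
    LinearMap.charpoly (ρ₁.ρ g) = LinearMap.charpoly (ρ₂.ρ g) := by
  obtain ⟨L₁, hL₁, h₁⟩ := ρ₁.factorsThroughFiniteLevel
  obtain ⟨L₂, hL₂, h₂⟩ := ρ₂.factorsThroughFiniteLevel
  obtain ⟨ℓ, hℓ, hℓS, A, σ, hA, hσ, -, a, b, -, hb⟩ :=
    exists_isFrobeniusAt_map_pow (ρ₁.ρ.prod ρ₂.ρ)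
      ⟨L₁ ⊔ L₂, inferInstance, fun τ hτ => Prod.ext
        (h₁ τ fun x hx => hτ x ((le_sup_left : L₁ ≤ L₁ ⊔ L₂) hx))
        (h₂ τ fun x hx => hτ x ((le_sup_right : L₂ ≤ L₁ ⊔ L₂) hx))⟩ g S
  have hb₁ : ρ₁.ρ g = ρ₁.ρ σ ^ b := congrArg Prod.fst hb
  have hb₂ : ρ₂.ρ g = ρ₂.ρ σ ^ b := congrArg Prod.snd hb
  rw [hb₁, hb₂]
  exact charpoly_pow_eq_of_charpoly_eq ρ₁.finrank_eq ρ₂.finrank_eq (h ℓ hℓ hℓS A hA σ hσ) b

theorem residual_isEquiv_of_frobenius {k : Type} [Field k] (ρ₁ ρ₂ : ResidualGaloisRep k)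
    (S : Finset ℕ) (hirr : ρ₁.IsAbsolutelyIrreducible)
    (h : ∀ ℓ : ℕ, ℓ.Prime → ℓ ∉ S → ∀ A : ValuationSubring ℚ̄, A.LiesOverPrime ℓ →
      ∀ σ : Γℚ, A.IsFrobeniusAt σ ℓ →
        LinearMap.charpoly (ρ₁.ρ σ) = LinearMap.charpoly (ρ₂.ρ σ)) :
    ρ₁.IsEquiv ρ₂ := by
  refine residual_isEquiv_of_trace ρ₁ ρ₂ hirr fun g => ?_
  have b₁ := Module.finBasisOfFinrankEq k ρ₁.V ρ₁.finrank_eq
  have b₂ := Module.finBasisOfFinrankEq k ρ₂.V ρ₂.finrank_eq
  rw [LinearMap.trace_eq_matrix_trace k b₁, LinearMap.trace_eq_matrix_trace k b₂]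
  exact ((charpoly_eq_iff_toMatrix b₁ b₂ _ _).mp
    (residual_charpoly_eq_of_frobenius ρ₁ ρ₂ S h g)).1

/-- The reduced matrix representation modulo `𝔪 ^ n` factors through a finite level. -/
theorem adic_exists_level_map_mk {A : Type} [CommRing A] [IsLocalRing A] (ρ : GaloisRepAdic A)
    {ι : Type*} [Fintype ι] [DecidableEq ι] (b : Module.Basis ι A ρ.V) (n : ℕ) :
    ∃ L : IntermediateField ℚ ℚ̄, FiniteDimensional ℚ L ∧ ∀ τ : Γℚ, (∀ x ∈ L, τ x = x) →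
      (LinearMap.toMatrixAlgEquiv b (ρ.ρ τ)).map
        (Ideal.Quotient.mk (IsLocalRing.maximalIdeal A ^ n)) = 1 := by
  obtain ⟨L, hL, h⟩ := ρ.isAdicContinuous n
  refine ⟨L, hL, fun τ hτ => ?_⟩
  have hmem : ∀ j i, b.repr (ρ.ρ τ (b j) - b j) i ∈ IsLocalRing.maximalIdeal A ^ n := by
    intro j i
    refine Submodule.smul_induction_on
      (p := fun x => b.repr x i ∈ IsLocalRing.maximalIdeal A ^ n) (h τ hτ (b j)) ?_ ?_
    · intro r hr x _
      simpa using Ideal.mul_mem_right _ _ hr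
    · intro x y hx hy
      simpa using Ideal.add_mem _ hx hy
  ext i j
  have h1 := Ideal.Quotient.eq.mpr (show LinearMap.toMatrixAlgEquiv b (ρ.ρ τ) i j -
      (1 : Matrix ι ι A) i j ∈ IsLocalRing.maximalIdeal A ^ n by
    convert hmem j i using 1
    rw [LinearMap.toMatrixAlgEquiv_apply, map_sub, Finsupp.sub_apply, Module.Basis.repr_self,
      Finsupp.single_apply, Matrix.one_apply]
    simp [eq_comm])
  rw [Matrix.map_apply, h1, Matrix.one_apply, Matrix.one_apply]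
  split <;> simp

theorem adic_charpoly_eq_of_frobenius {A : Type} [CommRing A] [IsLocalRing A]
    [IsHausdorff (IsLocalRing.maximalIdeal A) A] (ρ₁ ρ₂ : GaloisRepAdic A)
    (S : Finset ℕ)
    (h : ∀ ℓ : ℕ, ℓ.Prime → ℓ ∉ S → ∀ P : ValuationSubring ℚ̄, P.LiesOverPrime ℓ →
      ∀ σ : Γℚ, P.IsFrobeniusAt σ ℓ →
        LinearMap.charpoly (ρ₁.ρ σ) = LinearMap.charpoly (ρ₂.ρ σ)) (g : Γℚ) :
    LinearMap.charpoly (ρ₁.ρ g) = LinearMap.charpoly (ρ₂.ρ g) := by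
  let b₁ := Module.finBasisOfFinrankEq A ρ₁.V ρ₁.finrank_eq
  let b₂ := Module.finBasisOfFinrankEq A ρ₂.V ρ₂.finrank_eq
  rw [charpoly_eq_iff_toMatrix b₁ b₂]
  suffices key : ∀ n : ℕ,
      let φ := Ideal.Quotient.mk (IsLocalRing.maximalIdeal A ^ n)
      φ (LinearMap.toMatrixAlgEquiv b₁ (ρ₁.ρ g)).trace =
          φ (LinearMap.toMatrixAlgEquiv b₂ (ρ₂.ρ g)).trace ∧
        φ (LinearMap.toMatrixAlgEquiv b₁ (ρ₁.ρ g)).det =
          φ (LinearMap.toMatrixAlgEquiv b₂ (ρ₂.ρ g)).det by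
    have sep : ∀ x y : A, (∀ n : ℕ, x - y ∈ IsLocalRing.maximalIdeal A ^ n) → x = y :=
      fun x y hxy => sub_eq_zero.mp <| IsHausdorff.haus' (I := IsLocalRing.maximalIdeal A) _
        fun n => SModEq.zero.mpr (by simpa [smul_eq_mul, Ideal.mul_top] using hxy n)
    exact ⟨sep _ _ fun n => Ideal.Quotient.eq.mp (key n).1,
      sep _ _ fun n => Ideal.Quotient.eq.mp (key n).2⟩
  intro n φ
  let R₁ : Γℚ →* Matrix (Fin 2) (Fin 2) (A ⧸ IsLocalRing.maximalIdeal A ^ n) :=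
    φ.mapMatrix.toMonoidHom.comp
      ((LinearMap.toMatrixAlgEquiv b₁).toMulEquiv.toMonoidHom.comp ρ₁.ρ)
  let R₂ : Γℚ →* Matrix (Fin 2) (Fin 2) (A ⧸ IsLocalRing.maximalIdeal A ^ n) :=
    φ.mapMatrix.toMonoidHom.comp
      ((LinearMap.toMatrixAlgEquiv b₂).toMulEquiv.toMonoidHom.comp ρ₂.ρ)
  obtain ⟨L₁, hL₁, h₁⟩ := adic_exists_level_map_mk ρ₁ b₁ n
  obtain ⟨L₂, hL₂, h₂⟩ := adic_exists_level_map_mk ρ₂ b₂ n
  obtain ⟨ℓ, hℓ, hℓS, P, σ, hP, hσ, -, a, b, -, hb⟩ :=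
    exists_isFrobeniusAt_map_pow (R₁.prod R₂)
      ⟨L₁ ⊔ L₂, inferInstance, fun τ hτ => Prod.ext
        (h₁ τ fun x hx => hτ x ((le_sup_left : L₁ ≤ L₁ ⊔ L₂) hx))
        (h₂ τ fun x hx => hτ x ((le_sup_right : L₂ ≤ L₁ ⊔ L₂) hx))⟩ g S
  have hb₁ : R₁ g = R₁ σ ^ b := congrArg Prod.fst hb
  have hb₂ : R₂ g = R₂ σ ^ b := congrArg Prod.snd hb
  have hσeq := (charpoly_eq_iff_toMatrix b₁ b₂ _ _).mp (h ℓ hℓ hℓS P hP σ hσ)
  have ht : (R₁ σ).trace = (R₂ σ).trace := by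
    have := congrArg φ hσeq.1
    rw [AddMonoidHom.map_trace, AddMonoidHom.map_trace] at this
    exact this
  have hd : (R₁ σ).det = (R₂ σ).det := by
    have := congrArg φ hσeq.2
    rw [RingHom.map_det, RingHom.map_det] at this
    exact this
  refine ⟨?_, ?_⟩
  · rw [AddMonoidHom.map_trace, AddMonoidHom.map_trace]
    change (R₁ g).trace = (R₂ g).trace
    rw [hb₁, hb₂]
    exact trace_pow_eq_of_trace_det ht hd b
  · rw [RingHom.map_det, RingHom.map_det]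
    change (R₁ g).det = (R₂ g).det
    rw [hb₁, hb₂, Matrix.det_pow, Matrix.det_pow, hd]

theorem adic_isEquiv_of_frobenius {A : Type} [CommRing A] [IsLocalRing A]
    [IsHausdorff (IsLocalRing.maximalIdeal A) A] (ρ₁ ρ₂ : GaloisRepAdic A)
    (S : Finset ℕ) (hirr : ρ₁.residual.IsAbsolutelyIrreducible)
    (h : ∀ ℓ : ℕ, ℓ.Prime → ℓ ∉ S → ∀ P : ValuationSubring ℚ̄, P.LiesOverPrime ℓ →
      ∀ σ : Γℚ, P.IsFrobeniusAt σ ℓ →
        LinearMap.charpoly (ρ₁.ρ σ) = LinearMap.charpoly (ρ₂.ρ σ)) :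
    ρ₁.IsEquiv ρ₂ := by
  refine adic_isEquiv_of_trace ρ₁ ρ₂ hirr fun g => ?_
  have b₁ := Module.finBasisOfFinrankEq A ρ₁.V ρ₁.finrank_eq
  have b₂ := Module.finBasisOfFinrankEq A ρ₂.V ρ₂.finrank_eq
  rw [GaloisRepAdic.trace, GaloisRepAdic.trace, LinearMap.trace_eq_matrix_trace A b₁,
    LinearMap.trace_eq_matrix_trace A b₂]
  exact ((charpoly_eq_iff_toMatrix b₁ b₂ _ _).mp
    (adic_charpoly_eq_of_frobenius ρ₁ ρ₂ S h g)).1

end Fermat.Agent.Density
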