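import Fermat.Prelude.Def_GaloisRep_Adic
import Fermat.Prelude.Def_GaloisRep_ComplexConjugation
import Fermat.Agent.Density.BrauerNesbitt

/-!
# Absolute irreducibility of two-dimensional residual representations

* `isAbsolutelyIrreducible_iff_span`: absolute irreducibility is the same as spanning the
  endomorphism algebra; consequences for equivalences and base change.
* `isAbsolutelyIrreducible_of_odd`: odd irreducible representations in characteristic ≠ 2 are
  absolutely irreducible.
-/

noncomputable section

open scoped TensorProduct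

namespace Fermat.Agent.Density

local notation "ℚ̄" => AlgebraicClosure ℚ
local notation "Γℚ" => (AlgebraicClosure ℚ ≃ₐ[ℚ] AlgebraicClosure ℚ)

/-- A spanning family of endomorphisms has no proper invariant subspace over any extension. -/
theorem eq_bot_or_top_of_span_eq_top {k K : Type*} [Field k] [Field K] [Algebra k K]
    {V : Type*} [AddCommGroup V] [Module k V] [FiniteDimensional k V] {G : Type*}
    (ρ : G → Module.End k V) (hspan : Submodule.span k (Set.range ρ) = ⊤)
    (W : Submodule K (K ⊗[k] V)) (hW : ∀ g, ∀ x ∈ W, (ρ g).baseChange K x ∈ W) :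
    W = ⊥ ∨ W = ⊤ := by
  refine or_iff_not_imp_left.mpr fun hne => ?_
  obtain ⟨x, hxW, hx⟩ := Submodule.exists_mem_ne_zero_of_ne_bot hne
  have hall : ∀ f : Module.End k V, f.baseChange K x ∈ W := by
    intro f
    have hf : f ∈ Submodule.span k (Set.range ρ) := by rw [hspan]; exact Submodule.mem_top
    induction hf using Submodule.span_induction with
    | mem f hf => obtain ⟨g, rfl⟩ := hf; exact hW g x hxW
    | zero => simp
    | add f f' _ _ h h' => rw [LinearMap.baseChange_add]; exact W.add_mem h h'
    | smul a f _ h =>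
      rw [LinearMap.baseChange_smul, LinearMap.smul_apply, ← IsScalarTower.algebraMap_smul K]
      exact W.smul_mem _ h
  let b := Module.finBasis k V
  let bK := Algebra.TensorProduct.basis K b
  obtain ⟨i, hi⟩ : ∃ i, bK.repr x i ≠ 0 := by
    by_contra hcon
    push Not at hcon
    exact hx (bK.repr.injective (by ext i; simpa using hcon i))
  rw [eq_top_iff, ← bK.span_eq, Submodule.span_le]
  rintro _ ⟨j, rfl⟩
  have hlin : ((b.coord i).smulRight (b j)).baseChange K x = bK.repr x i • bK j := by
    have : ((b.coord i).smulRight (b j)).baseChange K = (bK.coord i).smulRight (bK j) := by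
      refine bK.ext fun l => ?_
      simp [bK, Algebra.TensorProduct.basis_apply, Finsupp.single_apply]
      split <;> simp
    rw [this]; rfl
  have := W.smul_mem (bK.repr x i)⁻¹ (hall ((b.coord i).smulRight (b j)))
  rwa [hlin, smul_smul, inv_mul_cancel₀ hi, one_smul] at this

/-- Absolute irreducibility is spanning the endomorphism algebra. -/
theorem isAbsolutelyIrreducible_iff_span {k : Type} [Field k] (ρ : ResidualGaloisRep k) :
    ρ.IsAbsolutelyIrreducible ↔ Submodule.span k (Set.range ρ.ρ) = ⊤ :=
  have : Nontrivial ρ.V := Module.nontrivial_of_finrank_eq_succ ρ.finrank_eq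
  ⟨fun h => span_range_eq_top_of_absolutelyIrreducible (AlgebraicClosure k) ρ.ρ h,
    fun h W hW => eq_bot_or_top_of_span_eq_top ρ.ρ h W hW⟩

/-- An absolutely irreducible representation stays irreducible over every extension. -/
theorem baseChange_isIrreducible {k : Type} [Field k] (ρ : ResidualGaloisRep k)
    (h : ρ.IsAbsolutelyIrreducible) (k' : Type) [Field k'] [Algebra k k'] :
    (ρ.baseChange k').IsIrreducible :=
  fun W hW => eq_bot_or_top_of_span_eq_top ρ.ρ ((isAbsolutelyIrreducible_iff_span ρ).mp h) W hW

/-- An absolutely irreducible representation is irreducible. -/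
theorem isIrreducible_of_absolutelyIrreducible {k : Type} [Field k] (ρ : ResidualGaloisRep k)
    (h : ρ.IsAbsolutelyIrreducible) : ρ.IsIrreducible := by
  intro W hW
  have h' := (isAbsolutelyIrreducible_iff_span ρ).mp h
  refine or_iff_not_imp_left.mpr fun hne => ?_
  obtain ⟨x, hxW, hx⟩ := Submodule.exists_mem_ne_zero_of_ne_bot hne
  refine eq_top_iff.mpr fun y _ => ?_
  obtain ⟨φ, hφ⟩ := exists_dual_eq_one k hx
  have hall : ∀ f ∈ Submodule.span k (Set.range ρ.ρ), f x ∈ W := by
    intro f hf
    induction hf using Submodule.span_induction with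
    | mem f hf => obtain ⟨g, rfl⟩ := hf; exact hW g x hxW
    | zero => exact W.zero_mem
    | add f f' _ _ h h' => exact W.add_mem h h'
    | smul a f _ h => exact W.smul_mem a h
  simpa [hφ] using hall (φ.smulRight y) (by rw [h']; exact Submodule.mem_top)
where
  exists_dual_eq_one (k : Type) [Field k] {V : Type} [AddCommGroup V] [Module k V] {x : V}
      (hx : x ≠ 0) : ∃ φ : V →ₗ[k] k, φ x = 1 := by
    obtain ⟨φ, hφ⟩ : ∃ φ : Module.Dual k V, φ x ≠ 0 := by
      by_contra hcon
      push Not at hcon
      exact hx ((Module.forall_dual_apply_eq_zero_iff k x).mp hcon)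
    exact ⟨(φ x)⁻¹ • φ, by simp [hφ]⟩

/-- Absolute irreducibility is invariant under equivalence. -/
theorem isAbsolutelyIrreducible_of_isEquiv {k : Type} [Field k] {ρ₁ ρ₂ : ResidualGaloisRep k}
    (he : ρ₁.IsEquiv ρ₂) (h : ρ₁.IsAbsolutelyIrreducible) : ρ₂.IsAbsolutelyIrreducible := by
  obtain ⟨e⟩ := he
  rw [isAbsolutelyIrreducible_iff_span] at h ⊢
  have h1 := congrArg (Submodule.map (e.toLinearEquiv.conj).toLinearMap) h
  rw [Submodule.map_span, Submodule.map_top, LinearEquiv.range, ← Set.range_comp] at h1
  rw [show (⇑ρ₂.ρ : Γℚ → Module.End k ρ₂.V) = fun g => e.toLinearEquiv.conj (ρ₁.ρ g) from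
    funext fun g => LinearMap.ext fun y => by
      simp [LinearEquiv.conj_apply, e.map_apply]]
  exact h1

/-- An irreducible representation with a complex conjugation of determinant `-1`, in
characteristic different from two, is absolutely irreducible. -/
theorem isAbsolutelyIrreducible_of_det_eq_neg_one {k : Type} [Field k] (ρ : ResidualGaloisRep k)
    (h2 : (2 : k) ≠ 0) (hirr : ρ.IsIrreducible) (c : Γℚ) (hcc : c * c = 1)
    (hdet : LinearMap.det (ρ.ρ c) = -1) : ρ.IsAbsolutelyIrreducible := by
  intro W hW
  refine or_iff_not_imp_left.mpr fun hne => ?_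
  obtain ⟨x, hxW, hx⟩ := Submodule.exists_mem_ne_zero_of_ne_bot hne
  let K := AlgebraicClosure k
  let b := Module.finBasisOfFinrankEq k ρ.V ρ.finrank_eq
  let M := LinearMap.toMatrixAlgEquiv b (ρ.ρ c)
  have hM2 : M * M = 1 := by rw [← map_mul, ← map_mul, hcc, map_one, map_one]
  have hMd : M.det = -1 := by rw [← hdet, ← LinearMap.det_toMatrix b]; rfl
  have ht : M.trace = 0 := by
    have h := matrix_two_mul_self M
    rw [hM2, hMd, neg_smul, one_smul, sub_neg_eq_add] at h
    have h' : M.trace • M = 0 := by simpa using h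
    by_contra htne
    have hM0 : M = 0 := (smul_eq_zero.mp h').resolve_left htne
    simp [hM0] at hMd
  -- `1 + s • ρ c` is singular for `s = 1, -1`
  have hker : ∀ s : k, s * s = 1 → ∃ v : ρ.V, ∀ w : ρ.V, ∃ a : k, a • v = w + s • ρ.ρ c w := by
    intro s hs
    have hdet0 : LinearMap.det (1 + s • ρ.ρ c) = 0 := by
      rw [← LinearMap.det_toMatrix b]
      have : LinearMap.toMatrix b b (1 + s • ρ.ρ c) = 1 + s • M := by
        rw [map_add, map_smul, LinearMap.toMatrix_one]; rfl
      rw [this]
      have h11 : M 1 1 = -M 0 0 := by rw [Matrix.trace_fin_two] at ht; linear_combination ht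
      rw [Matrix.det_fin_two] at hMd ⊢
      simp [h11] at hMd ⊢
      linear_combination s * s * hMd - hs
    have hlt : Module.finrank k (LinearMap.range (1 + s • ρ.ρ c)) ≤ 1 := by
      have hne' : LinearMap.range (1 + s • ρ.ρ c) ≠ ⊤ := fun h => by
        have hu : IsUnit (1 + s • ρ.ρ c) := by
          rw [Module.End.isUnit_iff]
          exact ⟨LinearMap.injective_iff_surjective.mpr (LinearMap.range_eq_top.mp h),
            LinearMap.range_eq_top.mp h⟩
        exact (hu.map LinearMap.det).ne_zero hdet0
      have := Submodule.finrank_lt hne'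
      rw [ρ.finrank_eq] at this
      omega
    obtain ⟨v, hv⟩ := finrank_le_one_iff.mp hlt
    exact ⟨v, fun w => by
      obtain ⟨a, ha⟩ := hv ⟨_, LinearMap.mem_range_self _ w⟩
      exact ⟨a, by simpa using congrArg Subtype.val ha⟩⟩
  obtain ⟨s, hs, hy⟩ : ∃ s : k, s * s = 1 ∧ x + s • (ρ.ρ c).baseChange K x ≠ 0 := by
    by_contra hcon
    push Not at hcon
    have h1 := hcon 1 (by simp)
    have h3 := hcon (-1) (by simp)
    have h4 : (2 : k) • x = 0 := by
      rw [two_smul]
      linear_combination (norm := module) h1 + h3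
    exact hx ((smul_eq_zero.mp h4).resolve_left h2)
  obtain ⟨v, hv⟩ := hker s hs
  have hsub : ∀ z : K ⊗[k] ρ.V, ∃ a : K, a • ((1 : K) ⊗ₜ[k] v) = z + s • (ρ.ρ c).baseChange K z := by
    intro z
    induction z using TensorProduct.induction_on with
    | zero => exact ⟨0, by simp⟩
    | tmul r w =>
      obtain ⟨a, ha⟩ := hv w
      refine ⟨r * algebraMap k K a, ?_⟩
      rw [LinearMap.baseChange_tmul, ← TensorProduct.tmul_smul s r (ρ.ρ c w),
        ← TensorProduct.tmul_add, ← ha, TensorProduct.smul_tmul', smul_eq_mul, mul_one,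
        TensorProduct.tmul_smul a r v, TensorProduct.smul_tmul', Algebra.smul_def, mul_comm]
    | add z z' h h' =>
      obtain ⟨a, ha⟩ := h
      obtain ⟨a', ha'⟩ := h'
      exact ⟨a + a', by rw [add_smul, ha, ha', map_add, smul_add]; abel⟩
  obtain ⟨a, ha⟩ := hsub x
  have hyW : x + s • (ρ.ρ c).baseChange K x ∈ W := by
    refine W.add_mem hxW ?_
    rw [← IsScalarTower.algebraMap_smul K]
    exact W.smul_mem _ (hW c x hxW)
  have ha0 : a ≠ 0 := fun h => hy (by rw [← ha, h, zero_smul])
  have hv0 : v ≠ 0 := fun h => hy (by rw [← ha, h, TensorProduct.tmul_zero, smul_zero])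
  let U : Submodule k ρ.V :=
    (W.restrictScalars k).comap (TensorProduct.mk k K ρ.V 1)
  have hvU : v ∈ U := by
    show (1 : K) ⊗ₜ[k] v ∈ W
    have := W.smul_mem a⁻¹ (ha ▸ hyW)
    rwa [smul_smul, inv_mul_cancel₀ ha0, one_smul] at this
  rcases hirr U (fun g u hu => hW g ((1 : K) ⊗ₜ[k] u) hu) with h | h
  · rw [h] at hvU
    exact absurd ((Submodule.mem_bot k).mp hvU) hv0
  · refine Submodule.eq_top_iff'.mpr fun z => ?_
    induction z using TensorProduct.induction_on with
    | zero => exact W.zero_mem
    | tmul r w =>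
      have hw : (1 : K) ⊗ₜ[k] w ∈ W := (h.ge Submodule.mem_top : w ∈ U)
      simpa [TensorProduct.smul_tmul'] using W.smul_mem r hw
    | add z z' h h' => exact W.add_mem h h'

/-- An odd irreducible representation in characteristic different from two is absolutely
irreducible. -/
theorem isAbsolutelyIrreducible_of_odd {k : Type} [Field k] (ρ : ResidualGaloisRep k)
    (h2 : (2 : k) ≠ 0) (hirr : ρ.IsIrreducible) (hodd : ρ.IsOdd) :
    ρ.IsAbsolutelyIrreducible := by
  have hne : complexConjugation ≠ (1 : Γℚ) := by
    intro h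
    obtain ⟨i, hi⟩ := IsAlgClosed.exists_pow_nat_eq (-1 : ℚ̄) two_pos
    have hc := complexEmbedding_complexConjugation i
    rw [h, AlgEquiv.one_apply] at hc
    have hsq : complexEmbedding i ^ 2 = -1 := by rw [← map_pow, hi, map_neg, map_one]
    obtain ⟨re, him⟩ := Complex.conj_eq_iff_real.mp hc.symm
    rw [him, ← Complex.ofReal_pow] at hsq
    have := congrArg Complex.re hsq
    simp only [Complex.ofReal_re, Complex.neg_re, Complex.one_re] at this
    nlinarith [sq_nonneg re]
  exact isAbsolutelyIrreducible_of_det_eq_neg_one ρ h2 hirr _ complexConjugation_mul_self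
    (hodd _ complexConjugation_mul_self hne)

end Fermat.Agent.Density
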