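import Mathlib.RingTheory.AdicCompletion.Basic
import Fermat.Agent.Density.FrobeniusDensity

/-!
# Homomorphisms out of `Γ_ℚ` are determined by their values at Frobenius elements
-/

noncomputable section

namespace Fermat.Agent.Density

local notation "ℚ̄" => AlgebraicClosure ℚ
local notation "Γℚ" => (AlgebraicClosure ℚ ≃ₐ[ℚ] AlgebraicClosure ℚ)

/-- Two homomorphisms factoring through finite levels that agree at almost all Frobenius elements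
are equal. -/
theorem monoidHom_eq_of_frobenius {M : Type*} [Monoid M] (ρ₁ ρ₂ : Γℚ →* M)
    (h₁ : ∃ L : IntermediateField ℚ ℚ̄, FiniteDimensional ℚ L ∧
      ∀ σ : Γℚ, (∀ x ∈ L, σ x = x) → ρ₁ σ = 1)
    (h₂ : ∃ L : IntermediateField ℚ ℚ̄, FiniteDimensional ℚ L ∧
      ∀ σ : Γℚ, (∀ x ∈ L, σ x = x) → ρ₂ σ = 1)
    (S : Finset ℕ)
    (h : ∀ ℓ : ℕ, ℓ.Prime → ℓ ∉ S → ∀ A : ValuationSubring ℚ̄, A.LiesOverPrime ℓ →
      ∀ σ : Γℚ, A.IsFrobeniusAt σ ℓ → ρ₁ σ = ρ₂ σ) :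
    ρ₁ = ρ₂ := by
  obtain ⟨L₁, hL₁, hk₁⟩ := h₁
  obtain ⟨L₂, hL₂, hk₂⟩ := h₂
  refine MonoidHom.ext fun g => ?_
  obtain ⟨ℓ, hℓ, hℓS, A, σ, hA, hσ, -, a, b, -, hb⟩ := exists_isFrobeniusAt_map_pow (ρ₁.prod ρ₂)
    ⟨L₁ ⊔ L₂, inferInstance, fun τ hτ => Prod.ext
      (hk₁ τ fun x hx => hτ x (SetLike.le_def.mp le_sup_left hx))
      (hk₂ τ fun x hx => hτ x (SetLike.le_def.mp le_sup_right hx))⟩ g S
  simp only [MonoidHom.prod_apply, Prod.pow_mk, Prod.mk.injEq] at hb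
  rw [hb.1, hb.2, h ℓ hℓ hℓS A hA σ hσ]

/-- Two adically continuous characters that agree at almost all Frobenius elements are equal. -/
theorem character_eq_of_frobenius {A : Type*} [CommRing A] (I : Ideal A) [IsHausdorff I A]
    (χ₁ χ₂ : Γℚ →* A)
    (h₁ : ∀ n : ℕ, ∃ L : IntermediateField ℚ ℚ̄, FiniteDimensional ℚ L ∧
      ∀ σ : Γℚ, (∀ x ∈ L, σ x = x) → χ₁ σ - 1 ∈ I ^ n)
    (h₂ : ∀ n : ℕ, ∃ L : IntermediateField ℚ ℚ̄, FiniteDimensional ℚ L ∧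
      ∀ σ : Γℚ, (∀ x ∈ L, σ x = x) → χ₂ σ - 1 ∈ I ^ n)
    (S : Finset ℕ)
    (h : ∀ ℓ : ℕ, ℓ.Prime → ℓ ∉ S → ∀ P : ValuationSubring ℚ̄, P.LiesOverPrime ℓ →
      ∀ σ : Γℚ, P.IsFrobeniusAt σ ℓ → χ₁ σ = χ₂ σ) :
    χ₁ = χ₂ := by
  refine MonoidHom.ext fun g => sub_eq_zero.mp (IsHausdorff.haus' (I := I) _ fun n => ?_)
  let q : A →* A ⧸ I ^ n := (Ideal.Quotient.mk (I ^ n)).toMonoidHom
  have key := monoidHom_eq_of_frobenius (q.comp χ₁) (q.comp χ₂)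
    (by obtain ⟨L, hL, hk⟩ := h₁ n
        exact ⟨L, hL, fun σ hσ =>
          (Ideal.Quotient.eq.mpr (hk σ hσ)).trans (map_one (Ideal.Quotient.mk (I ^ n)))⟩)
    (by obtain ⟨L, hL, hk⟩ := h₂ n
        exact ⟨L, hL, fun σ hσ =>
          (Ideal.Quotient.eq.mpr (hk σ hσ)).trans (map_one (Ideal.Quotient.mk (I ^ n)))⟩)
    S fun ℓ hℓ hℓS P hP σ hσ => congrArg q (h ℓ hℓ hℓS P hP σ hσ)
  rw [SModEq.zero, smul_eq_mul, Ideal.mul_top]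
  exact Ideal.Quotient.eq.mp (DFunLike.congr_fun key g)

end Fermat.Agent.Density
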