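import Fermat.Prelude.Def_GaloisRep_StrictOrdinary
import Fermat.Prelude.Def_GaloisRep_Flat
import Fermat.Agent.Density.AbsIrr
import Fermat.Agent.Density.CharpolyDetermines
import Fermat.Agent.Density.Hom
import Fermat.Agent.EC.Det.CyclotomicChar

/-!
# Transfer of properties of Galois representations

* invariance of the local and global conditions under equivalence;
* `detIsCyclotomic_of_frobenius`: the determinant is cyclotomic as soon as it is so at almost all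
  Frobenius elements;
* oddness from a cyclotomic determinant.
-/

noncomputable section

open scoped TensorProduct

namespace Fermat.Agent.Density

local notation "ℚ̄" => AlgebraicClosure ℚ
local notation "Γℚ" => (AlgebraicClosure ℚ ≃ₐ[ℚ] AlgebraicClosure ℚ)

section Residual

variable {k : Type} [Field k] {ρ₁ ρ₂ : ResidualGaloisRep k}

theorem residual_equiv_conj (e : ResidualGaloisRep.Equiv ρ₁ ρ₂) (σ : Γℚ) :
    ρ₂.ρ σ = e.toLinearEquiv.conj (ρ₁.ρ σ) :=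
  LinearMap.ext fun y => by simp [LinearEquiv.conj_apply, e.map_apply]

theorem residual_charpoly_eq_of_isEquiv (he : ρ₁.IsEquiv ρ₂) (σ : Γℚ) :
    LinearMap.charpoly (ρ₂.ρ σ) = LinearMap.charpoly (ρ₁.ρ σ) := by
  obtain ⟨e⟩ := he
  rw [residual_equiv_conj e σ, LinearEquiv.charpoly_conj]

theorem residual_det_eq_of_isEquiv (he : ρ₁.IsEquiv ρ₂) (σ : Γℚ) :
    LinearMap.det (ρ₂.ρ σ) = LinearMap.det (ρ₁.ρ σ) := by
  obtain ⟨e⟩ := he
  rw [residual_equiv_conj e σ]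
  exact LinearMap.det_conj (ρ₁.ρ σ) e.toLinearEquiv

theorem residual_trace_eq_of_isEquiv (he : ρ₁.IsEquiv ρ₂) (σ : Γℚ) :
    LinearMap.trace k ρ₂.V (ρ₂.ρ σ) = LinearMap.trace k ρ₁.V (ρ₁.ρ σ) := by
  obtain ⟨e⟩ := he
  rw [residual_equiv_conj e σ, LinearMap.trace_conj']

theorem residual_isUnramifiedAt_of_isEquiv (he : ρ₁.IsEquiv ρ₂) {q : ℕ}
    (h : ρ₁.IsUnramifiedAt q) : ρ₂.IsUnramifiedAt q := by
  obtain ⟨e⟩ := he
  intro A hA σ hσ
  rw [residual_equiv_conj e σ, h A hA σ hσ]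
  exact e.toLinearEquiv.conj_id

theorem residual_isOdd_of_isEquiv (he : ρ₁.IsEquiv ρ₂) (h : ρ₁.IsOdd) : ρ₂.IsOdd :=
  fun c hc hne => (residual_det_eq_of_isEquiv he c).trans (h c hc hne)

theorem residual_isIrreducible_of_isEquiv (he : ρ₁.IsEquiv ρ₂) (h : ρ₁.IsIrreducible) :
    ρ₂.IsIrreducible := by
  obtain ⟨e⟩ := he
  intro W hW
  rcases h (W.comap e.toLinearEquiv.toLinearMap) (fun σ x hx => by
    show e.toLinearEquiv (ρ₁.ρ σ x) ∈ W
    rw [e.map_apply]; exact hW σ _ hx) with hb | ht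
  · refine Or.inl ((Submodule.eq_bot_iff W).mpr fun x hx => ?_)
    have : e.toLinearEquiv.symm x ∈ W.comap e.toLinearEquiv.toLinearMap := by
      show e.toLinearEquiv (e.toLinearEquiv.symm x) ∈ W
      simpa using hx
    rw [hb, Submodule.mem_bot] at this
    simpa using this
  · refine Or.inr (Submodule.eq_top_iff'.mpr fun x => ?_)
    have : e.toLinearEquiv.symm x ∈ W.comap e.toLinearEquiv.toLinearMap := by
      rw [ht]; exact Submodule.mem_top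
    simpa using this

end Residual

section Adic

variable {A : Type} [CommRing A] [IsLocalRing A] {ρ₁ ρ₂ : GaloisRepAdic A}

theorem adic_equiv_conj (e : GaloisRepAdic.Equiv ρ₁ ρ₂) (σ : Γℚ) :
    ρ₂.ρ σ = e.toLinearEquiv.conj (ρ₁.ρ σ) :=
  LinearMap.ext fun y => by simp [LinearEquiv.conj_apply, e.map_apply]

theorem adic_charpoly_eq_of_isEquiv (he : ρ₁.IsEquiv ρ₂) (σ : Γℚ) :
    LinearMap.charpoly (ρ₂.ρ σ) = LinearMap.charpoly (ρ₁.ρ σ) := by
  obtain ⟨e⟩ := he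
  rw [adic_equiv_conj e σ, LinearEquiv.charpoly_conj]

theorem adic_det_eq_of_isEquiv (he : ρ₁.IsEquiv ρ₂) (σ : Γℚ) :
    LinearMap.det (ρ₂.ρ σ) = LinearMap.det (ρ₁.ρ σ) := by
  obtain ⟨e⟩ := he
  rw [adic_equiv_conj e σ]
  exact LinearMap.det_conj (ρ₁.ρ σ) e.toLinearEquiv

theorem adic_trace_eq_of_isEquiv (he : ρ₁.IsEquiv ρ₂) (σ : Γℚ) :
    ρ₂.trace σ = ρ₁.trace σ := by
  obtain ⟨e⟩ := he
  rw [GaloisRepAdic.trace, GaloisRepAdic.trace, adic_equiv_conj e σ, LinearMap.trace_conj']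

theorem residual_isEquiv_of_isEquiv (he : ρ₁.IsEquiv ρ₂) : ρ₁.residual.IsEquiv ρ₂.residual :=
  he.map GaloisRepAdic.Equiv.residual

theorem adic_residual_isAbsolutelyIrreducible_of_isEquiv (he : ρ₁.IsEquiv ρ₂)
    (h : ρ₁.residual.IsAbsolutelyIrreducible) : ρ₂.residual.IsAbsolutelyIrreducible :=
  isAbsolutelyIrreducible_of_isEquiv (residual_isEquiv_of_isEquiv he) h

theorem adic_isUnramifiedAt_of_isEquiv (he : ρ₁.IsEquiv ρ₂) {q : ℕ}
    (h : ρ₁.IsUnramifiedAt q) : ρ₂.IsUnramifiedAt q := by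
  obtain ⟨e⟩ := he
  intro P hP σ hσ
  rw [adic_equiv_conj e σ, h P hP σ hσ]
  exact e.toLinearEquiv.conj_id

theorem adic_detIsCyclotomic_of_isEquiv (he : ρ₁.IsEquiv ρ₂) {p : ℕ}
    (h : ρ₁.DetIsCyclotomic p) : ρ₂.DetIsCyclotomic p :=
  ⟨h.1, fun n σ a ha => by rw [adic_det_eq_of_isEquiv he σ]; exact h.2 n σ a ha⟩

theorem adic_isUnipotentOnInertiaAt_of_isEquiv (he : ρ₁.IsEquiv ρ₂) {q : ℕ}
    (h : ρ₁.IsUnipotentOnInertiaAt q) : ρ₂.IsUnipotentOnInertiaAt q :=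
  fun P hP σ hσ => (adic_charpoly_eq_of_isEquiv he σ).trans (h P hP σ hσ)

theorem map_mem_map_span_singleton (e : GaloisRepAdic.Equiv ρ₁ ρ₂) {L : Submodule A ρ₁.V}
    {b : Module.Basis (Fin 2) A ρ₁.V} (hL : L = A ∙ b 0) :
    L.map e.toLinearEquiv.toLinearMap = A ∙ (b.map e.toLinearEquiv) 0 := by
  rw [hL, Submodule.map_span, Set.image_singleton]; rfl

theorem adic_isOrdinaryAt_of_isEquiv (he : ρ₁.IsEquiv ρ₂) {p : ℕ}
    (h : ρ₁.IsOrdinaryAt p) : ρ₂.IsOrdinaryAt p := by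
  obtain ⟨e⟩ := he
  intro P hP
  obtain ⟨L, ⟨b, hb⟩, hD, hI⟩ := h P hP
  refine ⟨L.map e.toLinearEquiv.toLinearMap, ⟨_, map_mem_map_span_singleton e hb⟩, ?_, ?_⟩
  · rintro σ hσ _ ⟨v, hv, rfl⟩
    exact ⟨ρ₁.ρ σ v, hD σ hσ v hv, e.map_apply σ v⟩
  · intro σ hσ v
    obtain ⟨w, rfl⟩ := e.toLinearEquiv.surjective v
    exact ⟨ρ₁.ρ σ w - w, hI σ hσ w, by simp [e.map_apply]⟩

theorem adic_isStrictOrdinaryAt_of_isEquiv (he : ρ₁.IsEquiv ρ₂) {p : ℕ}
    (h : ρ₁.IsStrictOrdinaryAt p) : ρ₂.IsStrictOrdinaryAt p := by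
  obtain ⟨e⟩ := he
  refine ⟨h.1, fun P hP => ?_⟩
  obtain ⟨L, ⟨b, hb⟩, hD, hI, hS⟩ := h.2 P hP
  refine ⟨L.map e.toLinearEquiv.toLinearMap, ⟨_, map_mem_map_span_singleton e hb⟩, ?_, ?_, ?_⟩
  · rintro σ hσ _ ⟨v, hv, rfl⟩
    exact ⟨ρ₁.ρ σ v, hD σ hσ v hv, e.map_apply σ v⟩
  · intro σ hσ v
    obtain ⟨w, rfl⟩ := e.toLinearEquiv.surjective v
    exact ⟨ρ₁.ρ σ w - w, hI σ hσ w, by simp [e.map_apply]⟩
  · intro σ hσ
    obtain ⟨x, z, hx, hz, ha⟩ := hS σ hσ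
    refine ⟨x, z, ?_, ?_, ha⟩
    · rintro _ ⟨w, hw, rfl⟩
      simp [← e.map_apply, hx w hw]
    · intro v
      obtain ⟨w, rfl⟩ := e.toLinearEquiv.surjective v
      exact ⟨ρ₁.ρ σ w - z • w, hz w, by simp [e.map_apply]⟩

theorem adic_isFlatAt_of_isEquiv (he : ρ₁.IsEquiv ρ₂) {p : ℕ}
    (h : ρ₁.IsFlatAt p) : ρ₂.IsFlatAt p := by
  obtain ⟨ε⟩ := he
  refine ⟨h.1, fun I hI => ?_⟩
  obtain ⟨H, iH, iHopf, hfin, hflat, hcoc, e, hadd, hgal⟩ := h.2 I hI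
  let Q : (ρ₁.V ⧸ (I • (⊤ : Submodule A ρ₁.V))) ≃ₗ[A] (ρ₂.V ⧸ (I • (⊤ : Submodule A ρ₂.V))) :=
    Submodule.Quotient.equiv _ _ ε.toLinearEquiv (by
      rw [Submodule.map_smul'', Submodule.map_top, LinearEquiv.range])
  have hQ : ∀ σ y, Q (ρ₁.levelAction I σ y) = ρ₂.levelAction I σ (Q y) := by
    intro σ y
    obtain ⟨v, rfl⟩ := Submodule.Quotient.mk_surjective _ y
    show (Submodule.Quotient.mk (ε.toLinearEquiv (ρ₁.ρ σ v)) :
      ρ₂.V ⧸ (I • (⊤ : Submodule A ρ₂.V))) = Submodule.Quotient.mk (ρ₂.ρ σ (ε.toLinearEquiv v))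
    rw [ε.map_apply]
  refine ⟨H, iH, iHopf, hfin, hflat, hcoc, e.trans Q.toEquiv, ?_, ?_⟩
  · intro f g
    show Q (e (f * g)) = Q (e f) + Q (e g)
    rw [hadd, map_add]
  · intro σ f g hfg
    show Q (e g) = ρ₂.levelAction I σ (Q (e f))
    rw [hgal σ f g hfg, hQ]

theorem ordinaryCondition_of_isEquiv {𝒪 : Type} [CommRing 𝒪] [Algebra 𝒪 A] {p : ℕ} {S : Finset ℕ}
    (he : ρ₁.IsEquiv ρ₂) (h : GaloisRep.ordinaryCondition 𝒪 p S ρ₁) :
    GaloisRep.ordinaryCondition 𝒪 p S ρ₂ :=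
  ⟨adic_detIsCyclotomic_of_isEquiv he h.1, adic_isOrdinaryAt_of_isEquiv he h.2.1,
    fun q hq hqS => adic_isUnramifiedAt_of_isEquiv he (h.2.2 q hq hqS)⟩

theorem strictOrdinaryCondition_of_isEquiv {𝒪 : Type} [CommRing 𝒪] [Algebra 𝒪 A] {p : ℕ}
    {S : Finset ℕ} (he : ρ₁.IsEquiv ρ₂) (h : GaloisRep.strictOrdinaryCondition 𝒪 p S ρ₁) :
    GaloisRep.strictOrdinaryCondition 𝒪 p S ρ₂ :=
  ⟨adic_detIsCyclotomic_of_isEquiv he h.1, adic_isStrictOrdinaryAt_of_isEquiv he h.2.1,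
    fun q hq hqS => adic_isUnramifiedAt_of_isEquiv he (h.2.2 q hq hqS)⟩

theorem flatCondition_of_isEquiv {𝒪 : Type} [CommRing 𝒪] [Algebra 𝒪 A] {p : ℕ}
    {S : Finset ℕ} (he : ρ₁.IsEquiv ρ₂) (h : GaloisRep.flatCondition 𝒪 p S ρ₁) :
    GaloisRep.flatCondition 𝒪 p S ρ₂ :=
  ⟨adic_detIsCyclotomic_of_isEquiv he h.1, adic_isFlatAt_of_isEquiv he h.2.1,
    fun q hq hqS => adic_isUnramifiedAt_of_isEquiv he (h.2.2 q hq hqS)⟩

theorem minimal_unipotent_of_isEquiv {p : ℕ} {S : Finset ℕ} (he : ρ₁.IsEquiv ρ₂)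
    (h : ∀ q ∈ S, q.Prime → q ≠ p → ρ₁.IsUnipotentOnInertiaAt q) :
    ∀ q ∈ S, q.Prime → q ≠ p → ρ₂.IsUnipotentOnInertiaAt q :=
  fun q hq hqp hne => adic_isUnipotentOnInertiaAt_of_isEquiv he (h q hq hqp hne)

end Adic

section Det

variable {A : Type} [CommRing A] [IsLocalRing A]

/-- The determinant in rank two is the constant coefficient of the characteristic polynomial. -/
theorem det_eq_charpoly_coeff_zero (ρ : GaloisRepAdic A) (σ : Γℚ) :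
    LinearMap.det (ρ.ρ σ) = (LinearMap.charpoly (ρ.ρ σ)).coeff 0 := by
  rw [LinearMap.det_eq_sign_charpoly_coeff, ρ.finrank_eq]
  simp

/-- A representation whose determinant is cyclotomic at almost all Frobenius elements has
cyclotomic determinant. -/
theorem detIsCyclotomic_of_frobenius [IsNoetherianRing A] (ρ : GaloisRepAdic A) (p : ℕ)
    (hp : p.Prime) (hpA : (p : A) ∈ IsLocalRing.maximalIdeal A) (S : Finset ℕ)
    (h : ∀ ℓ : ℕ, ℓ.Prime → ℓ ∉ S → ∀ P : ValuationSubring ℚ̄, P.LiesOverPrime ℓ →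
      ∀ σ : Γℚ, P.IsFrobeniusAt σ ℓ → LinearMap.det (ρ.ρ σ) = (ℓ : A)) :
    ρ.DetIsCyclotomic p := by
  refine ⟨hpA, fun n g a ha => ?_⟩
  have : NeZero (p ^ n) := ⟨pow_ne_zero n hp.ne_zero⟩
  set J : Ideal A := Ideal.span {((p ^ n : ℕ) : A)} with hJ
  let b := Module.finBasisOfFinrankEq A ρ.V ρ.finrank_eq
  suffices key : ∀ k : ℕ, LinearMap.det (ρ.ρ g) - (a : A) ∈ J ⊔ IsLocalRing.maximalIdeal A ^ k by
    rw [← Ideal.Quotient.eq_zero_iff_mem]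
    have hbot := Ideal.iInf_pow_smul_eq_bot_of_isLocalRing (M := A ⧸ J)
      (IsLocalRing.maximalIdeal A) (Ideal.IsMaximal.ne_top inferInstance)
    have hmem : Ideal.Quotient.mk J (LinearMap.det (ρ.ρ g) - (a : A)) ∈
        ⨅ k : ℕ, IsLocalRing.maximalIdeal A ^ k • (⊤ : Submodule A (A ⧸ J)) := by
      refine Submodule.mem_iInf _ |>.mpr fun k => ?_
      obtain ⟨j, hj, r, hr, hjr⟩ := Submodule.mem_sup.mp (key k)
      rw [← hjr, map_add, Ideal.Quotient.eq_zero_iff_mem.mpr hj, zero_add,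
        show Ideal.Quotient.mk J r = r • (1 : A ⧸ J) by
          rw [Algebra.smul_def, mul_one]; rfl]
      exact Submodule.smul_mem_smul hr Submodule.mem_top
    rw [hbot] at hmem
    simpa using hmem
  intro k
  let q := Ideal.Quotient.mk (J ⊔ IsLocalRing.maximalIdeal A ^ k)
  have hq0 : ((p ^ n : ℕ) : A ⧸ (J ⊔ IsLocalRing.maximalIdeal A ^ k)) = 0 := by
    rw [← map_natCast q, Ideal.Quotient.eq_zero_iff_mem]
    exact Ideal.mem_sup_left (Ideal.mem_span_singleton_self _)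
  have hdvd : ringChar (A ⧸ (J ⊔ IsLocalRing.maximalIdeal A ^ k)) ∣ p ^ n := ringChar.dvd hq0
  let c := ZMod.castHom hdvd (A ⧸ (J ⊔ IsLocalRing.maximalIdeal A ^ k))
  let χ₁ : Γℚ →* A ⧸ (J ⊔ IsLocalRing.maximalIdeal A ^ k) :=
    q.toMonoidHom.comp (LinearMap.det.comp ρ.ρ)
  let χ₂ : Γℚ →* A ⧸ (J ⊔ IsLocalRing.maximalIdeal A ^ k) :=
    c.toMonoidHom.comp ((Units.coeHom (ZMod (p ^ n))).comp (EC.cycloChar (p ^ n)))
  have heq : χ₁ = χ₂ := by
    refine monoidHom_eq_of_frobenius χ₁ χ₂ ?_ ?_ (insert p S) ?_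
    · obtain ⟨L, hL, hk⟩ := adic_exists_level_map_mk ρ b k
      refine ⟨L, hL, fun τ hτ => ?_⟩
      have h1 := congrArg Matrix.det (hk τ hτ)
      rw [← RingHom.mapMatrix_apply, ← RingHom.map_det, Matrix.det_one,
        ← map_one (Ideal.Quotient.mk (IsLocalRing.maximalIdeal A ^ k)), Ideal.Quotient.eq] at h1
      show q (LinearMap.det (ρ.ρ τ)) = 1
      rw [← map_one q, Ideal.Quotient.eq, ← LinearMap.det_toMatrix b]
      exact Ideal.mem_sup_right h1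
    · obtain ⟨L, hL, hk⟩ := EC.cycloChar_factors (p ^ n)
      refine ⟨L, hL, fun τ hτ => ?_⟩
      show c ((EC.cycloChar (p ^ n) τ : ZMod (p ^ n))) = 1
      rw [hk τ hτ, Units.val_one, map_one]
    · intro ℓ hℓ hℓS P hP σ hσ
      rw [Finset.mem_insert, not_or] at hℓS
      show q (LinearMap.det (ρ.ρ σ)) = c ((EC.cycloChar (p ^ n) σ : ZMod (p ^ n)))
      rw [h ℓ hℓ hℓS.2 P hP σ hσ, EC.cycloChar_eq_of_isFrobeniusAt hℓ
        (fun hd => hℓS.1 ((Nat.prime_dvd_prime_iff_eq hℓ hp).mp (hℓ.dvd_of_dvd_pow hd))) hP hσ]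
      simp [q, c]
  have hg : q (LinearMap.det (ρ.ρ g)) = c ((EC.cycloChar (p ^ n) g : ZMod (p ^ n))) :=
    DFunLike.congr_fun heq g
  obtain ⟨ζ, hζ⟩ := EC.exists_primitiveRoot_qbar (p ^ n)
  rw [EC.cycloChar_eq_of_apply_eq_pow (p ^ n) g hζ (ha ζ hζ.pow_eq_one), map_natCast,
    ← map_natCast q, Ideal.Quotient.eq] at hg
  exact hg

/-- The charpoly form: `X ^ 2 - a_ℓ X + ℓ` at almost all Frobenius elements. -/
theorem detIsCyclotomic_of_charpoly_frobenius [IsNoetherianRing A] (ρ : GaloisRepAdic A) (p : ℕ)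
    (hp : p.Prime) (hpA : (p : A) ∈ IsLocalRing.maximalIdeal A) (S : Finset ℕ)
    (h : ∀ ℓ : ℕ, ℓ.Prime → ℓ ∉ S → ∀ P : ValuationSubring ℚ̄, P.LiesOverPrime ℓ →
      ∀ σ : Γℚ, P.IsFrobeniusAt σ ℓ → ∃ t : A, LinearMap.charpoly (ρ.ρ σ) =
        Polynomial.X ^ 2 - Polynomial.C t * Polynomial.X + Polynomial.C (ℓ : A)) :
    ρ.DetIsCyclotomic p := by
  refine detIsCyclotomic_of_frobenius ρ p hp hpA S fun ℓ hℓ hℓS P hP σ hσ => ?_
  obtain ⟨t, ht⟩ := h ℓ hℓ hℓS P hP σ hσ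
  rw [det_eq_charpoly_coeff_zero, ht]
  simp [Polynomial.coeff_X_pow, Polynomial.coeff_C]

/-- A cyclotomic determinant takes the value `-1` at a complex conjugation, for odd `p`. -/
theorem det_eq_neg_one_of_detIsCyclotomic (ρ : GaloisRepAdic A) {p : ℕ} (hp : p.Prime)
    (hp2 : p ≠ 2) (h : ρ.DetIsCyclotomic p) {c : Γℚ} (hc : c * c = 1) (hne : c ≠ 1) :
    LinearMap.det (ρ.ρ c) = -1 := by
  have : Fact p.Prime := ⟨hp⟩
  have : NeZero p := ⟨hp.ne_zero⟩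
  have hμ : ∀ μ : ℚ̄, μ ^ p ^ 1 = 1 → c μ = μ ^ (p - 1) := by
    intro μ hμ
    rw [pow_one] at hμ
    rw [EC.apply_eq_pow_cycloChar p c hμ, EC.cycloChar_eq_neg_one_of_involution hc hne]
    congr 1
    obtain ⟨m, rfl⟩ := Nat.exists_eq_succ_of_ne_zero hp.ne_zero
    rw [Units.val_neg, Units.val_one, ZMod.val_neg_one, Nat.succ_sub_one]
  set d := LinearMap.det (ρ.ρ c) with hd
  have hmem : d + 1 ∈ IsLocalRing.maximalIdeal A := by
    have h1 := h.2 1 c (p - 1) hμ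
    have h2 : Ideal.span {((p ^ 1 : ℕ) : A)} ≤ IsLocalRing.maximalIdeal A := by
      rw [Ideal.span_singleton_le_iff_mem, pow_one]; exact h.1
    have h3 := Ideal.add_mem _ (h2 h1) h.1
    rw [Nat.cast_sub hp.one_le, Nat.cast_one] at h3
    convert h3 using 1
    ring
  have hsq : (d + 1) * (d - 1) = 0 := by
    have : d * d = 1 := by rw [hd, ← map_mul, ← map_mul, hc, map_one, map_one]
    linear_combination this
  have hu : IsUnit (d - 1) := by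
    by_contra hnu
    have h2 : (2 : A) ∈ IsLocalRing.maximalIdeal A := by
      have := Ideal.sub_mem _ hmem ((IsLocalRing.mem_maximalIdeal _).mpr hnu)
      convert this using 1
      ring
    obtain ⟨k, hk⟩ := hp.odd_of_ne_two hp2
    refine (Ideal.IsMaximal.ne_top (I := IsLocalRing.maximalIdeal A) inferInstance)
      ((Ideal.eq_top_iff_one _).mpr ?_)
    have := Ideal.sub_mem _ h.1 (Ideal.mul_mem_right (k : A) _ h2)
    simp [hk] at this
  exact eq_neg_of_add_eq_zero_left (hu.mul_left_eq_zero.mp hsq)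

/-- The residual representation of a representation with cyclotomic determinant is odd. -/
theorem residual_isOdd_of_detIsCyclotomic (ρ : GaloisRepAdic A) {p : ℕ} (hp : p.Prime)
    (hp2 : p ≠ 2) (h : ρ.DetIsCyclotomic p) : ρ.residual.IsOdd := by
  intro c hc hne
  show LinearMap.det ((ρ.ρ c).baseChange (IsLocalRing.ResidueField A)) = -1
  rw [LinearMap.det_baseChange, det_eq_neg_one_of_detIsCyclotomic ρ hp hp2 h hc hne, map_neg,
    map_one]

/-- A residual representation with cyclotomic determinant is odd. -/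
theorem isOdd_of_ofResidual_detIsCyclotomic {k : Type} [Field k] (ρ : ResidualGaloisRep k) {p : ℕ}
    (hp : p.Prime) (hp2 : p ≠ 2) (h : (GaloisRepAdic.ofResidualGaloisRep ρ).DetIsCyclotomic p) :
    ρ.IsOdd :=
  fun _ hc hne => det_eq_neg_one_of_detIsCyclotomic _ hp hp2 h hc hne

end Det

end Fermat.Agent.Density
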