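import Fermat.Agent.Galois.Frobenius
import Fermat.Agent.Density.Conj

/-!
# Places over a prime are conjugate; Frobenius elements are unique modulo inertia
-/

set_option autoImplicit false

noncomputable section

open scoped Pointwise

namespace Fermat.Agent.Density

open Fermat.Agent.Galois

local notation "Qb" => AlgebraicClosure ℚ
local notation "Γℚ" => (AlgebraicClosure ℚ ≃ₐ[ℚ] AlgebraicClosure ℚ)
local notation "Ob" => integralClosure ℤ (AlgebraicClosure ℚ)

-- `Algebra ℚ ℚ̄` elaborates to `DivisionRing.toRatAlgebra`, so restate the instances for it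
local instance placesConjInst0 : Algebra.IsAlgebraic ℚ Qb := AlgebraicClosure.isAlgebraic ℚ

local instance placesConjInst1 : IsAlgClosure ℚ Qb := ⟨inferInstance, inferInstance⟩

local instance placesConjInst2 : IsGalois ℚ Qb := IsAlgClosure.isGalois ℚ Qb

local instance placesConjInst3 : TopologicalSpace Ob := ⊥

local instance placesConjInst4 : DiscreteTopology Ob := ⟨rfl⟩

local instance placesConjInst5 : ContinuousSMul Γℚ Ob := by
  rw [continuousSMul_iff_stabilizer_isOpen]
  intro x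
  have h : MulAction.stabilizer Γℚ x = MulAction.stabilizer Γℚ (x : Qb) := by
    ext σ
    exact Subtype.ext_iff
  rw [h]
  exact stabilizer_isOpen_of_isIntegral _

local instance placesConjInst6 : Algebra.IsInvariant ℤ Ob Γℚ := by
  refine ⟨fun b hb => ?_⟩
  obtain ⟨r, hr⟩ := (InfiniteGalois.mem_range_algebraMap_iff_fixed (b : Qb)).mpr
    fun σ => congrArg Subtype.val (hb σ)
  have hint : IsIntegral ℤ r := by
    rw [← isIntegral_algebraMap_iff (B := Qb) (algebraMap ℚ Qb).injective, hr]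
    exact b.2
  obtain ⟨m, rfl⟩ := IsIntegrallyClosed.isIntegral_iff.mp hint
  refine ⟨m, Subtype.ext ?_⟩
  rw [← hr]
  simp

/-- The algebraic integers as elements of a valuation subring. -/
def algIntToPlace (A : ValuationSubring Qb) : Ob →+* A where
  toFun b := ⟨b, mem_valuationSubring_of_isIntegral_int A b.2⟩
  map_one' := rfl
  map_mul' _ _ := rfl
  map_zero' := rfl
  map_add' _ _ := rfl

/-- The centre of a place on the algebraic integers. -/
def placeCenter (A : ValuationSubring Qb) : Ideal Ob :=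
  (IsLocalRing.maximalIdeal A).comap (algIntToPlace A)

instance placeCenter_isPrime (A : ValuationSubring Qb) : (placeCenter A).IsPrime :=
  Ideal.IsPrime.comap _

theorem mem_placeCenter_iff (A : ValuationSubring Qb) (b : Ob) :
    b ∈ placeCenter A ↔ (b : Qb) ∈ A.nonunits := by
  rw [placeCenter, Ideal.mem_comap, ← ValuationSubring.coe_mem_nonunits_iff]
  rfl

theorem placeCenter_smul (A : ValuationSubring Qb) (a : Γℚ) : placeCenter (a • A) = a • placeCenter A := by
  ext b
  obtain ⟨c, rfl⟩ : ∃ c : Ob, a • c = b := ⟨a⁻¹ • b, smul_inv_smul a b⟩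
  rw [mem_placeCenter_iff, Ideal.smul_mem_pointwise_smul_iff, mem_placeCenter_iff]
  exact smul_mem_nonunits_smul_iff

/-- A place over a prime is determined by its centre. -/
theorem le_of_placeCenter_eq {A B : ValuationSubring Qb} {ℓ : ℕ} (hℓ : ℓ.Prime)
    (hA : A.LiesOverPrime ℓ) (h : placeCenter A = placeCenter B) : A ≤ B := by
  intro x hx
  obtain ⟨s, hs1, hs2, hs3⟩ := exists_isIntegral_mul_of_mem A hℓ hA
    ((IsFractionRing.isAlgebraic_iff ℤ ℚ Qb).mpr (Algebra.IsAlgebraic.isAlgebraic x)) hx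
  have hs : s ∉ B.nonunits := fun hsB => hs3 <| (mem_placeCenter_iff A ⟨s, hs1⟩).mp <|
    h ▸ (mem_placeCenter_iff B ⟨s, hs1⟩).mpr hsB
  rw [B.mem_nonunits_iff, not_lt] at hs
  rw [← B.valuation_le_one_iff]
  have h1 : B.valuation x * B.valuation s ≤ 1 := by
    rw [← map_mul]
    exact (B.valuation_le_one_iff _).mpr (mem_valuationSubring_of_isIntegral_int B hs2)
  exact le_trans (le_mul_of_one_le_right zero_le hs) h1

theorem placeCenter_under (A : ValuationSubring Qb) {ℓ : ℕ} (hℓ : ℓ.Prime) (hA : A.LiesOverPrime ℓ) :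
    (placeCenter A).under ℤ = Ideal.span {(ℓ : ℤ)} := by
  ext m
  rw [Ideal.mem_comap, mem_placeCenter_iff, Ideal.mem_span_singleton,
    ← intCast_mem_nonunits_iff A hℓ hA]
  simp

/-- The Galois group permutes the places over a prime transitively. -/
theorem exists_smul_eq {A B : ValuationSubring Qb} {ℓ : ℕ} (hℓ : ℓ.Prime)
    (hA : A.LiesOverPrime ℓ) (hB : B.LiesOverPrime ℓ) : ∃ a : Γℚ, B = a • A := by
  obtain ⟨a, ha⟩ := Algebra.IsInvariant.exists_smul_of_under_eq_of_profinite (A := ℤ) (G := Γℚ)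
    (placeCenter A) (placeCenter B) ((placeCenter_under A hℓ hA).trans (placeCenter_under B hℓ hB).symm)
  have hc : placeCenter (a • A) = placeCenter B := (placeCenter_smul A a).trans ha.symm
  exact ⟨a, le_antisymm (le_of_placeCenter_eq hℓ hB hc.symm)
    (le_of_placeCenter_eq hℓ (liesOverPrime_smul hA a) hc)⟩

variable {K L : Type*} [Field K] [Field L] [Algebra K L]

/-- Two Frobenius elements at the same place differ by an element of inertia. -/
theorem inv_mul_mem_inertiaSubgroupIn {A : ValuationSubring L} {σ τ : L ≃ₐ[K] L} {q : ℕ}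
    (hσ : A.IsFrobeniusAt σ q) (hτ : A.IsFrobeniusAt τ q) :
    σ⁻¹ * τ ∈ A.inertiaSubgroupIn K := by
  rw [isFrobeniusAt_iff] at hσ hτ
  have hdec := (A.decompositionSubgroup K).inv_mem hσ.1
  rw [mem_inertiaSubgroupIn_iff]
  refine ⟨(A.decompositionSubgroup K).mul_mem hdec hτ.1, fun x hx => ?_⟩
  have h1 : (σ⁻¹ * τ) x - x = σ⁻¹ (τ x - σ x) := by
    rw [map_sub, AlgEquiv.mul_apply]
    congr 1
    exact (σ.symm_apply_apply x).symm
  have h2 : τ x - σ x ∈ A.nonunits := by
    rw [show τ x - σ x = (τ x - x ^ q) - (σ x - x ^ q) by ring]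
    exact sub_mem (hτ.2 x hx) (hσ.2 x hx)
  rw [h1]
  have h3 := (smul_mem_nonunits_smul_iff (a := σ⁻¹) (A := A)).mpr h2
  rwa [MulAction.mem_stabilizer_iff.mp hdec] at h3

/-- If inertia at one place over `q` dies in `ρ`, every Frobenius element at every place over `q`
has image conjugate to that of a given one. -/
theorem exists_conj_of_isFrobeniusAt {M : Type*} [Monoid M] (ρ : Γℚ →* M) {q : ℕ} (hq : q.Prime)
    {A : ValuationSubring Qb} {σ : Γℚ} (hA : A.LiesOverPrime q) (hσ : A.IsFrobeniusAt σ q)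
    (hI : ∀ τ ∈ A.inertiaSubgroupIn ℚ, ρ τ = 1)
    {B : ValuationSubring Qb} {φ : Γℚ} (hB : B.LiesOverPrime q) (hφ : B.IsFrobeniusAt φ q) :
    (∃ a : Γℚ, ρ φ = ρ (a * σ * a⁻¹)) ∧ ∀ τ ∈ B.inertiaSubgroupIn ℚ, ρ τ = 1 := by
  obtain ⟨a, rfl⟩ := exists_smul_eq hq hA hB
  have hI' : ∀ τ ∈ (a • A).inertiaSubgroupIn ℚ, ρ τ = 1 := fun τ hτ => by
    have h := hI _ (conj_inv_mem_inertiaSubgroupIn hτ)
    have hτ' : τ = a * (a⁻¹ * τ * a) * a⁻¹ := by group
    rw [hτ', map_mul, map_mul, h, mul_one, ← map_mul, mul_inv_cancel, map_one]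
  refine ⟨⟨a, ?_⟩, hI'⟩
  have h := hI' _ (inv_mul_mem_inertiaSubgroupIn (isFrobeniusAt_conj hσ a) hφ)
  rw [show φ = (a * σ * a⁻¹) * ((a * σ * a⁻¹)⁻¹ * φ) by group, map_mul, h, mul_one]

end Fermat.Agent.Density
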