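import Mathlib.RingTheory.Frobenius
import Mathlib.NumberTheory.NumberField.Basic
import Mathlib.RingTheory.Ideal.Norm.AbsNorm
import Mathlib.FieldTheory.Galois.IsGaloisGroup
import Mathlib.FieldTheory.Finite.Basic
import Mathlib.Algebra.Algebra.ZMod
import Mathlib.LinearAlgebra.FreeModule.IdealQuotient

/-!
# Frobenius elements at almost all primes of a Galois number field over `ℚ`
-/

open NumberField
open scoped Pointwise

namespace Fermat.Agent.Density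

variable {K : Type*} [Field K] [NumberField K]

/-- The rational prime below a prime ideal containing it: the residue ring of `ℤ` has `l` elements. -/
lemma card_int_quotient_under {l : ℕ} (hl : l.Prime) (Q : Ideal (𝓞 K)) [Q.IsPrime]
    (hQ : (l : 𝓞 K) ∈ Q) : Nat.card (ℤ ⧸ Q.under ℤ) = l := by
  have h : Q.under ℤ = Ideal.span {(l : ℤ)} := by
    have hm : (Ideal.span {(l : ℤ)}).IsMaximal :=
      PrincipalIdealRing.isMaximal_of_irreducible (Nat.prime_iff_prime_int.mp hl).irreducible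
    refine (hm.eq_of_le ?_ ?_).symm
    · exact Ideal.IsPrime.ne_top inferInstance
    · rw [Ideal.span_singleton_le_iff_mem, Ideal.mem_comap]
      simpa using hQ
  rw [h, Nat.card_congr (Int.quotientSpanNatEquivZMod l).toEquiv, Nat.card_zmod]

lemma ne_bot_of_natCast_mem {l : ℕ} (hl : l.Prime) {Q : Ideal (𝓞 K)} (hQ : (l : 𝓞 K) ∈ Q) :
    Q ≠ ⊥ := by
  rintro rfl
  rw [Submodule.mem_bot, Nat.cast_eq_zero] at hQ
  exact hl.ne_zero hQ

lemma finite_quotient_of_natCast_mem {l : ℕ} (hl : l.Prime) {Q : Ideal (𝓞 K)}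
    (hQ : (l : 𝓞 K) ∈ Q) : Finite (𝓞 K ⧸ Q) :=
  Ideal.finiteQuotientOfFreeOfNeBot Q (ne_bot_of_natCast_mem hl hQ)

lemma exists_isMaximal_natCast_mem (K : Type*) [Field K] [NumberField K] {l : ℕ} (hl : l.Prime) :
    ∃ Q : Ideal (𝓞 K), Q.IsMaximal ∧ (l : 𝓞 K) ∈ Q := by
  have h : Ideal.span {(l : 𝓞 K)} ≠ ⊤ := by
    intro h
    have hn := congrArg Ideal.absNorm h
    rw [Ideal.absNorm_span_natCast, Ideal.absNorm_top, pow_eq_one_iff_left Module.finrank_pos.ne'] at hn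
    exact hl.ne_one hn
  obtain ⟨Q, hQ, hle⟩ := Ideal.exists_le_maximal _ h
  exact ⟨Q, hQ, hle (Ideal.mem_span_singleton_self _)⟩

local notation "G" => (K ≃ₐ[ℚ] K)

lemma smul_natCast_mem {l : ℕ} {Q : Ideal (𝓞 K)} (hQ : (l : 𝓞 K) ∈ Q) (x : G) :
    (l : 𝓞 K) ∈ x • Q := by
  have h := Ideal.smul_mem_pointwise_smul x (l : 𝓞 K) Q hQ
  have : x • (l : 𝓞 K) = (l : 𝓞 K) :=
    map_natCast (MulSemiringAction.toRingHom G (𝓞 K) x) l
  rwa [this] at h

lemma exists_smul_ne {σ : G} (hσ : σ ≠ 1) : ∃ a : 𝓞 K, σ • a ≠ a := by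
  by_contra! h
  apply hσ
  ext x
  obtain ⟨a, b, -, rfl⟩ := IsFractionRing.div_surjective (A := 𝓞 K) x
  have e : ∀ a : 𝓞 K, σ (algebraMap (𝓞 K) K a) = algebraMap (𝓞 K) K a := fun a => by
    conv_rhs => rw [← h a]
    rfl
  rw [map_div₀, e, e]
  rfl

/-- For all but finitely many primes `l`, every inertia subgroup over `l` is trivial. -/
theorem exists_finset_inertia_eq_bot (K : Type*) [Field K] [NumberField K] :
    ∃ B : Finset ℕ, ∀ l : ℕ, l.Prime → l ∉ B → ∀ Q : Ideal (𝓞 K), Q.IsPrime → (l : 𝓞 K) ∈ Q →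
      Q.inertia (K ≃ₐ[ℚ] K) = ⊥ := by
  classical
  choose a ha using fun σ : {σ : K ≃ₐ[ℚ] K // σ ≠ 1} => exists_smul_ne σ.2
  set c : 𝓞 K := ∏ σ, (σ.1 • a σ - a σ) with hc
  have hc0 : c ≠ 0 := Finset.prod_ne_zero_iff.mpr fun σ _ => sub_ne_zero.mpr (ha σ)
  set N := Ideal.absNorm (Ideal.span {c}) with hN
  have hN0 : N ≠ 0 := by
    rw [hN, Ne, Ideal.absNorm_eq_zero_iff, Ideal.span_singleton_eq_bot]
    exact hc0
  refine ⟨N.primeFactors, fun l hl hlB Q hQ hlQ => ?_⟩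
  rw [eq_bot_iff]
  intro τ hτ
  rw [Subgroup.mem_bot]
  by_contra h
  have hcQ : c ∈ Q := by
    refine Ideal.mem_of_dvd Q (Finset.dvd_prod_of_mem _ (Finset.mem_univ ⟨τ, h⟩)) ?_
    exact hτ _
  have hNQ : (N : 𝓞 K) ∈ Q :=
    (Ideal.span_singleton_le_iff_mem Q).mpr hcQ (Ideal.absNorm_mem _)
  have hcop : Nat.Coprime N l :=
    (hl.coprime_iff_not_dvd.mpr fun hdvd => hlB (Nat.mem_primeFactors.mpr ⟨hl, hdvd, hN0⟩)).symm
  obtain ⟨u, v, huv⟩ := Nat.Coprime.isCoprime hcop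
  refine hQ.ne_top ((Ideal.eq_top_iff_one Q).mpr ?_)
  have := congrArg (Int.cast : ℤ → 𝓞 K) huv
  push_cast at this
  rw [← this]
  exact add_mem (Q.mul_mem_left _ hNQ) (Q.mul_mem_left _ hlQ)

set_option linter.unusedSectionVars false

variable [IsGalois ℚ K]

/-- A Frobenius element exists at every prime above `l`. -/
theorem exists_isArithFrobAt {l : ℕ} (hl : l.Prime) (Q : Ideal (𝓞 K)) [Q.IsPrime]
    (hQ : (l : 𝓞 K) ∈ Q) : ∃ σ : G, IsArithFrobAt ℤ σ Q :=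
  haveI := finite_quotient_of_natCast_mem hl hQ
  IsArithFrobAt.exists_of_isInvariant ℤ G Q

lemma isArithFrobAt_iff {l : ℕ} (hl : l.Prime) {Q : Ideal (𝓞 K)} [Q.IsPrime]
    (hQ : (l : 𝓞 K) ∈ Q) {σ : G} :
    IsArithFrobAt ℤ σ Q ↔ ∀ x : 𝓞 K, σ • x - x ^ l ∈ Q := by
  unfold IsArithFrobAt AlgHom.IsArithFrobAt
  rw [card_int_quotient_under hl Q hQ]
  rfl

lemma exists_smul_eq_of_natCast_mem {l : ℕ} (hl : l.Prime) (Q Q' : Ideal (𝓞 K)) [Q.IsPrime]
    [Q'.IsPrime] (hQ : (l : 𝓞 K) ∈ Q) (hQ' : (l : 𝓞 K) ∈ Q') : ∃ x : G, Q' = x • Q := by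
  have hm : (Ideal.span {(l : ℤ)}).IsMaximal :=
    PrincipalIdealRing.isMaximal_of_irreducible (Nat.prime_iff_prime_int.mp hl).irreducible
  have h : ∀ P : Ideal (𝓞 K), P.IsPrime → (l : 𝓞 K) ∈ P → Ideal.span {(l : ℤ)} = P.under ℤ := by
    intro P hP hlP
    refine hm.eq_of_le (Ideal.IsPrime.ne_top inferInstance) ?_
    rw [Ideal.span_singleton_le_iff_mem, Ideal.mem_comap]
    simpa using hlP
  exact Algebra.IsInvariant.exists_smul_of_under_eq ℤ (𝓞 K) G Q Q'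
    ((h Q inferInstance hQ).symm.trans (h Q' inferInstance hQ'))

/-- If inertia is trivial, the decomposition group is generated by the Frobenius. -/
theorem stabilizer_eq_zpowers {l : ℕ} (hl : l.Prime) {Q : Ideal (𝓞 K)} [Q.IsPrime]
    (hQ : (l : 𝓞 K) ∈ Q) (hI : Q.inertia G = ⊥) {σ : G} (hσ : IsArithFrobAt ℤ σ Q) :
    MulAction.stabilizer G Q = Subgroup.zpowers σ := by
  refine le_antisymm (fun τ hτ => ?_) (Subgroup.zpowers_le.mpr hσ.mem_stabilizer)
  haveI := finite_quotient_of_natCast_mem hl hQ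
  haveI : Q.IsMaximal :=
    Ideal.Quotient.maximal_of_isField _ (Finite.isField_of_domain (𝓞 K ⧸ Q))
  letI := Ideal.Quotient.field Q
  haveI := Fact.mk hl
  haveI : CharP (𝓞 K ⧸ Q) l :=
    (CharP.charP_iff_prime_eq_zero hl).mpr <| by
      rw [← map_natCast (Ideal.Quotient.mk Q)]
      exact Ideal.Quotient.eq_zero_iff_mem.mpr hQ
  letI : Algebra (ZMod l) (𝓞 K ⧸ Q) := ZMod.algebra _ l
  -- the action of `τ` on the residue field
  have hstab : ∀ {a b : 𝓞 K}, a - b ∈ Q → τ • a - τ • b ∈ Q := by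
    intro a b h
    rw [← smul_sub, ← (MulAction.mem_stabilizer_iff.mp hτ)]
    exact Ideal.smul_mem_pointwise_smul τ _ Q h
  let f : (𝓞 K ⧸ Q) →+* (𝓞 K ⧸ Q) :=
    Ideal.quotientMap Q (MulSemiringAction.toRingHom G (𝓞 K) τ) fun a ha => by
      have := hstab (a := a) (b := 0) (by simpa using ha)
      simpa [Ideal.mem_comap] using this
  let φ : (𝓞 K ⧸ Q) →ₐ[ZMod l] (𝓞 K ⧸ Q) :=
    { f with
      commutes' := fun r =>
        congrFun (congrArg (⇑· : (ZMod l →+* 𝓞 K ⧸ Q) → ZMod l → 𝓞 K ⧸ Q)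
          (Subsingleton.elim (f.comp (algebraMap (ZMod l) _)) (algebraMap (ZMod l) _))) r }
  obtain ⟨i, hi⟩ := (FiniteField.bijective_frobeniusAlgHom_pow (ZMod l) (𝓞 K ⧸ Q)).2 φ
  have key : ∀ x : 𝓞 K, τ • x - x ^ l ^ i.1 ∈ Q := fun x => by
    rw [← Ideal.Quotient.eq, map_pow]
    have h1 := DFunLike.congr_fun hi (Ideal.Quotient.mk Q x)
    rw [AlgHom.coe_pow, FiniteField.coe_frobeniusAlgHom, pow_iterate, ZMod.card] at h1
    exact h1.symm
  have key2 : ∀ (n : ℕ) (x : 𝓞 K), (σ ^ n) • x - x ^ l ^ n ∈ Q := by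
    intro n
    induction n with
    | zero => simp
    | succ n ih =>
      intro x
      have h1 := (isArithFrobAt_iff hl hQ).mp hσ ((σ ^ n) • x)
      have h2 : ((σ ^ n) • x) ^ l - (x ^ l ^ n) ^ l ∈ Q :=
        Ideal.mem_of_dvd Q (sub_dvd_pow_sub_pow _ _ l) (ih x)
      have := add_mem h1 h2
      rw [sub_add_sub_cancel, ← pow_mul, ← pow_succ, ← mul_smul, ← pow_succ'] at this
      exact this
  have hmem : σ ^ i.1 * τ⁻¹ ∈ Q.inertia G := by
    intro y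
    have := sub_mem (key2 i (τ⁻¹ • y)) (key (τ⁻¹ • y))
    rwa [sub_sub_sub_cancel_right, ← mul_smul, smul_inv_smul] at this
  rw [hI, Subgroup.mem_bot, mul_inv_eq_one] at hmem
  exact hmem ▸ Subgroup.npow_mem_zpowers σ _

/-- With trivial inertia the Frobenius is unique. -/
theorem eq_of_isArithFrobAt {Q : Ideal (𝓞 K)} (hI : Q.inertia G = ⊥) {σ σ' : G}
    (hσ : IsArithFrobAt ℤ σ Q) (hσ' : IsArithFrobAt ℤ σ' Q) : σ = σ' := by
  have := hσ.mul_inv_mem_inertia hσ'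
  rwa [hI, Subgroup.mem_bot, mul_inv_eq_one] at this

/-- Trivial inertia is transported along the Galois action. -/
theorem inertia_smul_eq_bot {Q : Ideal (𝓞 K)} (hI : Q.inertia G = ⊥) (x : G) :
    (x • Q).inertia G = ⊥ := by
  rw [eq_bot_iff]
  intro τ hτ
  have : x⁻¹ * τ * x ∈ Q.inertia G := by
    intro y
    have h := Ideal.smul_mem_pointwise_smul x⁻¹ _ _ (hτ (x • y))
    rw [inv_smul_smul, smul_sub, inv_smul_smul, ← mul_smul, ← mul_smul] at h
    exact h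
  rw [hI, Subgroup.mem_bot] at this
  rw [Subgroup.mem_bot]
  calc τ = x * (x⁻¹ * τ * x) * x⁻¹ := by group
    _ = 1 := by rw [this, mul_one, mul_inv_cancel]

end Fermat.Agent.Density
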